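/-
Row 37 (S43), block TRIV (architect helper194).  DEFINITIONS.  Generic in `F₀ ⊆ ℚ((q))` (API of `S48/BB/E`, `S43/Ops`).

* `Cong1 F₀ A u` : `u ≡ 1` for the Gauss valuation `v` of `FB F₀ ⊆ ℚ̄((q))` attached to `A` (verbatim `C1.Cong1`);
* `CongC F₀ A u` : `u ∈ ℚ̄ˣ (1 + m_v)`;
* `IsKinf A x`   : the class `x ∈ W1 F₀ n` has a representative `≡ 1` at `v` (plain `K_∞`, used at level `Γ₀`);
* `Dia F₀ G`     : diamond operators `dia : G →* Aut(FB F₀ / ℚ̄)` defined over `ℚ`;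
* `IsKD D A x`   : `x` has ONE representative `u` with `⟨d⟩ u ∈ ℚ̄ˣ (1 + m_v)` for ALL `d` (the constant may depend
                   on `d`): "`x` is trivial at all the diamond conjugates of `v`"  (`K_∞` at level `H`);
* `WTw F₀ G`     : an Atkin-Lehner datum: `Dia` + a `ℚ̄`-automorphism `w` with `w ⟨d⟩ = ⟨d⟩⁻¹ w` and the Galois twist
                   `σ w = w ⟨e σ⟩ σ`;
* `IsK0 D A x`   : `w x ∈ K_∞` (plain);   `IsK0D D A x` : `w x ∈ K_∞` (all conjugates)   (`K_0 = w⁻¹ K_∞`).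
-/
import Fermat.Agent.S48.BB.E.Main
import Fermat.Agent.S43.Ops.U.Defs

set_option autoImplicit false

noncomputable section

namespace Fermat.Agent.S43.Triv

open ModularCurve AlgebraicCurve Fermat.Agent.S24 Fermat.Agent.S24.B Fermat.Agent.S48.BB
  Fermat.Agent.S48.BB.M Fermat.Agent.S48.BB.E
open Fermat.Agent.GAL.E (GQ incl red)

/-- `u ≡ 1` for the Gauss valuation of `FB F₀ ⊆ ℚ̄((q))` attached to `A`: `u = P / Q` with `A`-integral
elements `P`, `Q` of `FB F₀` having the same nonzero reduction. -/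
def Cong1 (F₀ : IntermediateField ℚ (LaurentSeries ℚ)) (A : ValuationSubring Kbar) (u : FB F₀) :
    Prop :=
  ∃ (P Q : LaurentSeries A) (hP : incl A P ∈ laurentBaseChange Kbar F₀)
    (hQ : incl A Q ∈ laurentBaseChange Kbar F₀),
    red A P = red A Q ∧ red A Q ≠ 0 ∧ u = (⟨incl A P, hP⟩ : FB F₀) / ⟨incl A Q, hQ⟩

/-- `u ∈ ℚ̄ˣ (1 + m_v)`. -/
def CongC (F₀ : IntermediateField ℚ (LaurentSeries ℚ)) (A : ValuationSubring Kbar) (u : FB F₀) :
    Prop :=
  ∃ c : Kbar, c ≠ 0 ∧ Cong1 F₀ A (algebraMap Kbar (FB F₀) c * u)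

variable {F₀ : IntermediateField ℚ (LaurentSeries ℚ)}

/-- Classes with a representative `≡ 1` at the Gauss valuation (plain `K_∞`). -/
def IsKinf (A : ValuationSubring Kbar) {n : ℕ} (x : W1 F₀ n) : Prop :=
  ∃ u : kum (FB F₀) n, cls u = x ∧ Cong1 F₀ A ((u : (FB F₀)ˣ) : FB F₀)

/-- Diamond operators, defined over `ℚ`. -/
structure Dia (F₀ : IntermediateField ℚ (LaurentSeries ℚ)) (G : Type) [Group G] where
  /-- the diamond operators -/
  dia : G →* (FB F₀ ≃ₐ[Kbar] FB F₀)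
  /-- the diamond operators are defined over `ℚ` -/
  galF_dia : ∀ (σ : GQ) (d : G) (u : FB F₀), galF F₀ σ (dia d u) = dia d (galF F₀ σ u)

/-- the diamond operators on the Kummer module. -/
def Dia.diaW {G : Type} [Group G] (D : Dia F₀ G) (n : ℕ) (d : G) : AddMonoid.End (W1 F₀ n) :=
  autW (D.dia d) n

/-- Classes with ONE representative which is `≡ const` at all the diamond conjugates of the Gauss valuation. -/
def IsKD {G : Type} [Group G] (D : Dia F₀ G) (A : ValuationSubring Kbar) {n : ℕ} (x : W1 F₀ n) :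
    Prop :=
  ∃ u : kum (FB F₀) n, cls u = x ∧ ∀ d : G, CongC F₀ A (D.dia d ((u : (FB F₀)ˣ) : FB F₀))

/-- An Atkin-Lehner datum on `FB F₀`: `w`, the diamond operators (a commutative group `G`, e.g. `(ℤ/q)ˣ`), and
the Galois twist `e : G_ℚ → G` (`e = ε_q^{±1}`; the sign is irrelevant for the consumers). -/
structure WTw (F₀ : IntermediateField ℚ (LaurentSeries ℚ)) (G : Type) [CommGroup G] extends
    Dia F₀ G where
  /-- the Atkin-Lehner automorphism -/
  w : FB F₀ ≃ₐ[Kbar] FB F₀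
  /-- the twist -/
  e : GQ → G
  /-- `w ⟨d⟩ = ⟨d⟩⁻¹ w` -/
  w_dia : ∀ (d : G) (u : FB F₀), w (dia d u) = dia d⁻¹ (w u)
  /-- `σ w = w ⟨e σ⟩ σ` -/
  galF_w : ∀ (σ : GQ) (u : FB F₀), galF F₀ σ (w u) = w (dia (e σ) (galF F₀ σ u))

namespace WTw

variable {G : Type} [CommGroup G] (D : WTw F₀ G)

/-- `w` on the Kummer module. -/
def wW (n : ℕ) : AddMonoid.End (W1 F₀ n) := autW D.w n

/-- `w⁻¹` on the Kummer module. -/
def wWinv (n : ℕ) : AddMonoid.End (W1 F₀ n) := autW D.w⁻¹ n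

/-- `U_q^* = w⁻¹ U_q w` on the Kummer module. -/
def UsW {q : ℕ} [NeZero q] (X : Ops.U.UOp F₀ q) (n : ℕ) : AddMonoid.End (W1 F₀ n) :=
  D.wWinv n * X.UW n * D.wW n

end WTw

/-- plain `K_0 = w⁻¹ K_∞`. -/
def IsK0 {G : Type} [CommGroup G] (D : WTw F₀ G) (A : ValuationSubring Kbar) {n : ℕ}
    (x : W1 F₀ n) : Prop := IsKinf A (D.wW n x)

/-- `K_0 = w⁻¹ K_∞` (all the diamond conjugates). -/
def IsK0D {G : Type} [CommGroup G] (D : WTw F₀ G) (A : ValuationSubring Kbar) {n : ℕ}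
    (x : W1 F₀ n) : Prop := IsKD D.toDia A (D.wW n x)

end Fermat.Agent.S43.Triv

end
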