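/-
Row 37 (S43), block TRIV (architect helper194).  THE TWO TRIVIAL INCLUSIONS, generic in `F₀` (`IntGen F₀`):
* `Kinf A n`          : `K_∞` is a subgroup of `W1 F₀ n`;
* `isKinf_of_redQ`    : a Kummer unit `e` such that `e(q^m)` reduces to a constant gives a class of `K_∞`;
* `isKinf_rho_sub`    : `(σ - 1) W ⊆ K_∞` for `σ` in the inertia group of `A`;
* `isKinf_frob_sub`   : `(φ - U_q) W ⊆ K_∞` for a Frobenius `φ` at `A ∣ q`;
* `IsKinf.rho`, `IsKinf.UW` : `K_∞` is stable under the decomposition group (inertia, Frobenius) and under `U_q`.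
-/
import Fermat.Agent.S43.Triv.Defs

set_option autoImplicit false

noncomputable section

namespace Fermat.Agent.S43.Triv

open ModularCurve AlgebraicCurve Fermat.Agent.S24 Fermat.Agent.S24.B Fermat.Agent.S48.BB
  Fermat.Agent.S48.BB.M Fermat.Agent.S48.BB.E
open Fermat.Agent.GAL.E (GQ incl red)

variable {F₀ : IntermediateField ℚ (LaurentSeries ℚ)} {A : ValuationSubring Kbar}

theorem mk_ne_zero' {R : LaurentSeries A} (hR : red A R ≠ 0)
    (h : incl A R ∈ laurentBaseChange Kbar F₀) : (⟨incl A R, h⟩ : FB F₀) ≠ 0 := fun h0 =>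
  incl_ne_zero_of_red A hR (congrArg Subtype.val h0)

theorem Cong1.one : Cong1 F₀ A 1 := by
  have h1 : incl A 1 ∈ laurentBaseChange Kbar F₀ := by
    rw [map_one]; exact one_mem _
  refine ⟨1, 1, h1, h1, rfl, ?_, ?_⟩
  · rw [map_one]; exact one_ne_zero
  · rw [div_self]
    exact mk_ne_zero' (by rw [map_one]; exact one_ne_zero) h1

theorem Cong1.mul {u v : FB F₀} (hu : Cong1 F₀ A u) (hv : Cong1 F₀ A v) : Cong1 F₀ A (u * v) := by
  obtain ⟨P, Q, hP, hQ, hPQ, hQ0, rfl⟩ := hu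
  obtain ⟨P', Q', hP', hQ', hPQ', hQ0', rfl⟩ := hv
  refine ⟨P * P', Q * Q', by rw [map_mul]; exact mul_mem hP hP',
    by rw [map_mul]; exact mul_mem hQ hQ', by rw [map_mul, map_mul, hPQ, hPQ'],
    by rw [map_mul]; exact mul_ne_zero hQ0 hQ0', ?_⟩
  apply Subtype.ext
  show incl A P / incl A Q * (incl A P' / incl A Q') = incl A (P * P') / incl A (Q * Q')
  rw [map_mul, map_mul, div_mul_div_comm]

theorem Cong1.inv {u : FB F₀} (hu : Cong1 F₀ A u) : Cong1 F₀ A u⁻¹ := by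
  obtain ⟨P, Q, hP, hQ, hPQ, hQ0, rfl⟩ := hu
  exact ⟨Q, P, hQ, hP, hPQ.symm, hPQ ▸ hQ0, by rw [inv_div]⟩

theorem Cong1.ne_zero {u : FB F₀} (hu : Cong1 F₀ A u) : u ≠ 0 := by
  obtain ⟨P, Q, hP, hQ, hPQ, hQ0, rfl⟩ := hu
  exact div_ne_zero (mk_ne_zero' (hPQ ▸ hQ0) hP) (mk_ne_zero' hQ0 hQ)

/-- `u ≡ 1` in the calculus `RedQ`. -/
theorem Cong1.redQ {u : FB F₀} (hu : Cong1 F₀ A u) :
    ∃ α, RedQ A (u : LaurentSeries Kbar) α α := by
  obtain ⟨P, Q, hP, hQ, hPQ, hQ0, rfl⟩ := hu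
  refine ⟨red A Q, hQ0, hQ0, 1, P, Q, one_ne_zero, hPQ, rfl, ?_⟩
  show incl A P / incl A Q * incl A Q = _
  rw [div_mul_cancel₀ _ (incl_ne_zero_of_red A hQ0), map_one, one_mul]

variable {n : ℕ}

theorem IsKinf.zero : IsKinf A (0 : W1 F₀ n) :=
  ⟨1, cls_one, by simpa using Cong1.one (F₀ := F₀) (A := A)⟩

theorem IsKinf.add {x y : W1 F₀ n} (hx : IsKinf A x) (hy : IsKinf A y) : IsKinf A (x + y) := by
  obtain ⟨u, rfl, hu⟩ := hx
  obtain ⟨v, rfl, hv⟩ := hy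
  refine ⟨u * v, cls_mul u v, ?_⟩
  rw [Subgroup.coe_mul, Units.val_mul]
  exact hu.mul hv

theorem IsKinf.neg {x : W1 F₀ n} (hx : IsKinf A x) : IsKinf A (-x) := by
  obtain ⟨u, rfl, hu⟩ := hx
  refine ⟨u⁻¹, cls_inv u, ?_⟩
  rw [Subgroup.coe_inv, Units.val_inv_eq_inv_val]
  exact hu.inv

theorem IsKinf.sub {x y : W1 F₀ n} (hx : IsKinf A x) (hy : IsKinf A y) : IsKinf A (x - y) := by
  have e : x - y = x + -y := sub_eq_add_neg x y
  rw [e]
  exact hx.add hy.neg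

variable (F₀ A n) in
/-- `K_∞` as a subgroup. -/
def Kinf : AddSubgroup (W1 F₀ n) where
  carrier := {x | IsKinf A x}
  zero_mem' := IsKinf.zero
  add_mem' := IsKinf.add
  neg_mem' := IsKinf.neg

theorem mem_Kinf {x : W1 F₀ n} : x ∈ Kinf F₀ A n ↔ IsKinf A x := Iff.rfl

/-- two Kummer units which differ by a constant have the same class -/
theorem cls_eq_of_eq_const_mul [NeZero n] (u v : kum (FB F₀) n) (c : Kbar)
    (h : ((u : (FB F₀)ˣ) : FB F₀) = algebraMap Kbar (FB F₀) c * ((v : (FB F₀)ˣ) : FB F₀)) :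
    cls u = cls v := by
  obtain ⟨d, hd⟩ := IsAlgClosed.exists_pow_nat_eq c (NeZero.pos n)
  apply cls_eq_of_mul_inv_mem
  apply mem_pows_of_eq_pow (w := algebraMap Kbar (FB F₀) d)
  rw [Subgroup.coe_mul, Subgroup.coe_inv, Units.val_mul, Units.val_inv_eq_inv_val, h, ← map_pow,
    hd, mul_assoc, mul_inv_cancel₀ (Units.ne_zero _), mul_one]

/-- **The key criterion**: a Kummer unit `e` such that `e(q^m)` reduces to a constant (in the sense
of `RedQ`) gives a class of `K_∞`. -/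
theorem isKinf_of_redQ [NeZero n] (hG : IntGen F₀) {ℓ : ℕ}
    (hℓ : ℓ.Prime) (hA : A.LiesOverPrime ℓ) (e : kum (FB F₀) n) (m : ℕ) [NeZero m]
    (α : LaurentSeries (IsLocalRing.ResidueField A))
    (h : RedQ A (qExpand Kbar m (((e : (FB F₀)ˣ) : FB F₀) : LaurentSeries Kbar)) α α) :
    IsKinf A (cls e) := by
  obtain ⟨d0, P, Q, hP, hQ, hd0, hP0, hQ0, hePQ⟩ :=
    exists_scaling hG A ℓ hℓ hA ((e : (FB F₀)ˣ) : FB F₀) (Units.ne_zero _)
  obtain ⟨hα, -, c, a, b, hc, ha, hb, hab⟩ := h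
  have hiQ : incl A Q ≠ 0 := incl_ne_zero_of_red A hQ0
  have he' : (((e : (FB F₀)ˣ) : FB F₀) : LaurentSeries Kbar) =
      HahnSeries.C d0 * (incl A P / incl A Q) := by
    rw [hePQ]
    show algebraMap Kbar (LaurentSeries Kbar) d0 * (incl A P / incl A Q) = _
    rw [GAL.E.scaling_algebraMap]
  have hVQ : qExpand Kbar m (incl A Q) ≠ 0 := fun h0 =>
    hiQ (qExpand_injective m (by rw [h0, map_zero]))
  -- the proportionality
  have h1 : incl A (qExpand A m P * b) =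
      HahnSeries.C (c / d0) * incl A (a * qExpand A m Q) := by
    rw [map_mul, map_mul, GAL.E.coeffMap_qExpand_comm, GAL.E.coeffMap_qExpand_comm]
    rw [he', map_mul, map_div₀, qExpand_C] at hab
    have hCd : (HahnSeries.C d0 : LaurentSeries Kbar) ≠ 0 := C_ne_zero' hd0
    rw [map_div₀]
    field_simp
    field_simp at hab
    linear_combination hab
  obtain ⟨t, ht, htres, hPQ⟩ := exists_unit_of_incl_eq A (c / d0) _ _ h1
    (by
      rw [map_mul, GAL.E.coeffMap_qExpand_comm, hb]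
      exact mul_ne_zero (fun h0 => hP0 (qExpand_injective m (by rw [h0, map_zero]))) hα)
    (by
      rw [map_mul, GAL.E.coeffMap_qExpand_comm, ha]
      exact mul_ne_zero hα (fun h0 => hQ0 (qExpand_injective m (by rw [h0, map_zero]))))
  have ht0 : (t : Kbar) ≠ 0 := by rw [ht]; exact div_ne_zero hc hd0
  -- the reductions are proportional
  have h2 : red A P = red A (HahnSeries.C t * Q) := by
    have h3 := congrArg (red A) hPQ
    rw [map_mul, map_mul, map_mul, GAL.E.coeffMap_qExpand_comm, GAL.E.coeffMap_qExpand_comm, ha, hb,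
      coeffMap_C'] at h3
    apply qExpand_injective (R := IsLocalRing.ResidueField A) m
    rw [map_mul, map_mul, coeffMap_C', qExpand_C]
    apply mul_right_cancel₀ hα
    rw [h3]
    ring
  have hQ' : incl A (HahnSeries.C t * Q) ∈ laurentBaseChange Kbar F₀ := by
    rw [map_mul, coeffMap_C']
    exact mul_mem (C_mem_FB F₀ _) hQ
  have hQ'0 : red A (HahnSeries.C t * Q) ≠ 0 := by
    rw [map_mul, coeffMap_C']
    exact mul_ne_zero (C_ne_zero' htres) hQ0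
  -- the rescaled unit
  have hc' : d0 * (t : Kbar) ≠ 0 := mul_ne_zero hd0 ht0
  have hval : ((e : (FB F₀)ˣ) : FB F₀) = algebraMap Kbar (FB F₀) (d0 * t) *
      ((⟨incl A P, hP⟩ : FB F₀) / ⟨incl A (HahnSeries.C t * Q), hQ'⟩) := by
    apply Subtype.ext
    rw [he']
    show _ = algebraMap Kbar (LaurentSeries Kbar) (d0 * t) *
      (incl A P / incl A (HahnSeries.C t * Q))
    rw [GAL.E.scaling_algebraMap, map_mul, map_mul, coeffMap_C']
    have hCt : (HahnSeries.C (t : Kbar) : LaurentSeries Kbar) ≠ 0 := C_ne_zero' ht0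
    show _ = HahnSeries.C d0 * HahnSeries.C (t : Kbar) *
      (incl A P / (HahnSeries.C (t : Kbar) * incl A Q))
    field_simp
  have hcF : algebraMap Kbar (FB F₀) (d0 * t) ≠ 0 := (map_ne_zero _).2 hc'
  have hz0 : ((⟨incl A P, hP⟩ : FB F₀) / ⟨incl A (HahnSeries.C t * Q), hQ'⟩) ≠ 0 :=
    div_ne_zero (mk_ne_zero' hP0 hP) (mk_ne_zero' hQ'0 hQ')
  have hk : IsKum (FB F₀) n
      ((⟨incl A P, hP⟩ : FB F₀) / ⟨incl A (HahnSeries.C t * Q), hQ'⟩) := by
    have h3 : ((⟨incl A P, hP⟩ : FB F₀) / ⟨incl A (HahnSeries.C t * Q), hQ'⟩)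
        = ((e : (FB F₀)ˣ) : FB F₀) * algebraMap Kbar (FB F₀) (d0 * t)⁻¹ := by
      rw [hval, map_inv₀]
      generalize ((⟨incl A P, hP⟩ : FB F₀) / ⟨incl A (HahnSeries.C t * Q), hQ'⟩) = z
      rw [mul_comm, ← mul_assoc, inv_mul_cancel₀ hcF, one_mul]
    rw [h3]
    exact IsKum.mul e.2 (isKum_algebraMap (FB F₀) n _)
  refine ⟨⟨Units.mk0 _ hz0, hk⟩, ?_, P, HahnSeries.C t * Q, hP, hQ', h2, hQ'0, rfl⟩
  symm
  exact cls_eq_of_eq_const_mul e _ (d0 * t) hval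

/-- **Trivial inclusion 1**: `(σ - 1) W ⊆ K_∞` for `σ` in the inertia group. -/
theorem isKinf_rho_sub [NeZero n] (hG : IntGen F₀) {ℓ : ℕ} (hℓ : ℓ.Prime)
    (hA : A.LiesOverPrime ℓ) (σ : GQ) (hσ : σ ∈ A.inertiaSubgroupIn ℚ) (x : W1 F₀ n) :
    IsKinf A (rho F₀ n σ x - x) := by
  obtain ⟨u, rfl⟩ := cls_surjective x
  rw [rho_cls]
  set u0 : FB F₀ := ((u : (FB F₀)ˣ) : FB F₀) with hu0
  have hu0ne : u0 ≠ 0 := Units.ne_zero _
  obtain ⟨α, β, hαβ⟩ := exists_redQ hG A ℓ hℓ hA u0 hu0ne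
  have key : ∀ a b : kum (FB F₀) n, cls a - cls b = cls (a * b⁻¹) := by
    intro a b
    rw [cls_mul, cls_inv]
    exact sub_eq_add_neg (G := W (FB F₀) n) _ _
  rw [key]
  refine isKinf_of_redQ hG hℓ hA _ 1 (α * β) ?_
  rw [qExpand_one_apply]
  have h1 := (hαβ.inertia hσ).mul hαβ.inv
  rw [mul_comm β α] at h1
  convert h1 using 1
  rw [Subgroup.coe_mul, Subgroup.coe_inv, Units.val_mul, Units.val_inv_eq_inv_val]
  rfl

/-- **Trivial inclusion 2**: `(φ - U_q) W ⊆ K_∞` for a Frobenius `φ` at `A ∣ q`. -/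
theorem isKinf_frob_sub [NeZero n] (hG : IntGen F₀) {q : ℕ} [NeZero q] (hq : q.Prime)
    (hA : A.LiesOverPrime q) (H : Ops.U.UOp F₀ q) (φ : GQ) (hφ : A.IsFrobeniusAt φ q) (x : W1 F₀ n) :
    IsKinf A (rho F₀ n φ x - H.UW n x) := by
  obtain ⟨u, rfl⟩ := cls_surjective x
  have : Fact q.Prime := ⟨hq⟩
  have : CharP (IsLocalRing.ResidueField A) q := GAL.E.charP_residueField A q hq hA
  rw [rho_cls, H.UW_cls]
  set u0 : FB F₀ := ((u : (FB F₀)ˣ) : FB F₀) with hu0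
  have hu0ne : u0 ≠ 0 := Units.ne_zero _
  obtain ⟨α, β, hu⟩ := exists_redQ hG A q hq hA u0 hu0ne
  set Fr := coeffMap (frobenius (IsLocalRing.ResidueField A) q) with hFr
  have key : ∀ a b : kum (FB F₀) n, cls a - cls b = cls (a * b⁻¹) := by
    intro a b
    rw [cls_mul, cls_inv]
    exact sub_eq_add_neg (G := W (FB F₀) n) _ _
  rw [key]
  have h1 : RedQ A ((galF F₀ φ u0 : FB F₀) : LaurentSeries Kbar) (Fr α) (Fr β) :=
    hu.frobenius q hφ
  have h4 : RedQ A (qExpand Kbar q ((H.U u0 : FB F₀) : LaurentSeries Kbar)) (α ^ q) (β ^ q) := by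
    rw [H.qExpand_U]
    exact hu.prod_twist hq hA
  have h5 := (h1.qExpand q).mul h4.inv
  refine isKinf_of_redQ hG hq hA _ q (qExpand _ q (Fr α) * β ^ q) ?_
  convert h5 using 1
  · rw [Subgroup.coe_mul, Subgroup.coe_inv, Units.val_mul, Units.val_inv_eq_inv_val]
    show qExpand Kbar q (((galF F₀ φ u0 : FB F₀) : LaurentSeries Kbar) *
      ((H.U u0 : FB F₀) : LaurentSeries Kbar)⁻¹) = _
    rw [map_mul, map_inv₀]
  · rw [GAL.E.pow_char_eq_qExpand q α, GAL.E.pow_char_eq_qExpand q β]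
    ring

end Fermat.Agent.S43.Triv

end
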