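/-
Row 37 (S43), block TRIV (architect helper194).  The calculus `RedC A z` : "`z ≡ const` for the Gauss valuation"
(series level, `z = c a / b` with `a, b ∈ A((q))` of the same nonzero reduction), and the bridge to `CongC`.
-/
import Fermat.Agent.S43.Triv.Kinf
import Fermat.Agent.C1.Red.Ops

set_option autoImplicit false

noncomputable section

namespace Fermat.Agent.S43.Triv

open ModularCurve AlgebraicCurve Fermat.Agent.S24 Fermat.Agent.S24.B Fermat.Agent.S48.BB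
  Fermat.Agent.S48.BB.M Fermat.Agent.S48.BB.E
open Fermat.Agent.GAL.E (GQ incl red)

/-- `z ≡ const` for the Gauss valuation. -/
def RedC (A : ValuationSubring Kbar) (z : LaurentSeries Kbar) : Prop := ∃ α, RedQ A z α α

variable {A : ValuationSubring Kbar} {z z' : LaurentSeries Kbar}

theorem RedC.one : RedC A 1 := ⟨1, RedQ.one⟩

theorem RedC.mul (h : RedC A z) (h' : RedC A z') : RedC A (z * z') := by
  obtain ⟨α, h⟩ := h
  obtain ⟨α', h'⟩ := h'
  exact ⟨α * α', h.mul h'⟩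

theorem RedC.inv (h : RedC A z) : RedC A z⁻¹ := by
  obtain ⟨α, h⟩ := h
  exact ⟨α, h.inv⟩

theorem RedC.div (h : RedC A z) (h' : RedC A z') : RedC A (z / z') := by
  rw [div_eq_mul_inv]
  exact h.mul h'.inv

theorem RedC.pow (h : RedC A z) (m : ℕ) : RedC A (z ^ m) := by
  obtain ⟨α, h⟩ := h
  exact ⟨α ^ m, h.pow m⟩

theorem RedC.prod {ι : Type*} (s : Finset ι) (f : ι → LaurentSeries Kbar)
    (h : ∀ i ∈ s, RedC A (f i)) : RedC A (∏ i ∈ s, f i) := by
  classical
  induction s using Finset.induction_on with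
  | empty => simpa using RedC.one
  | insert a s ha ih =>
    rw [Finset.prod_insert ha]
    exact (h a (Finset.mem_insert_self a s)).mul (ih fun i hi => h i (Finset.mem_insert_of_mem hi))

theorem RedC.const {c : Kbar} (hc : c ≠ 0) : RedC A (HahnSeries.C c) :=
  ⟨1, one_ne_zero, one_ne_zero, c, 1, 1, hc, map_one _, map_one _, rfl⟩

theorem RedC.qExpand (h : RedC A z) (m : ℕ) [NeZero m] : RedC A (ModularCurve.qExpand Kbar m z) := by
  obtain ⟨α, h⟩ := h
  exact ⟨_, h.qExpand m⟩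

theorem RedC.inertia (h : RedC A z) {σ : GQ} (hσ : σ ∈ A.inertiaSubgroupIn ℚ) :
    RedC A (coeffMap (σ : Kbar →+* Kbar) z) := by
  obtain ⟨α, h⟩ := h
  exact ⟨α, h.inertia hσ⟩

theorem RedC.frobenius (h : RedC A z) {p : ℕ} (hp : p.Prime) (hA : A.LiesOverPrime p) {σ : GQ}
    (hσ : A.IsFrobeniusAt σ p) : RedC A (coeffMap (σ : Kbar →+* Kbar) z) := by
  have : Fact p.Prime := ⟨hp⟩
  have : CharP (IsLocalRing.ResidueField A) p := GAL.E.charP_residueField A p hp hA
  obtain ⟨α, h⟩ := h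
  exact ⟨_, h.frobenius p hσ⟩

/-- twisting by a root of unity (any order) -/
theorem RedC.twist (h : RedC A z) (ζ : Kbarˣ) (m : ℕ) (hm : m ≠ 0) (hζ : ζ ^ m = 1) :
    RedC A (B.twist ζ z) := by
  obtain ⟨α, h⟩ := h
  obtain ⟨y, hy⟩ := C1.exists_unit_of_pow_eq_one A ζ m hm hζ
  exact ⟨_, h.map (B.twist ζ) (B.twist (Units.map (IsLocalRing.residue A : A →* _) y))
    (fun c hc => ⟨c, hc, twist_C ζ c⟩) (fun x hx h0 => hx ((twist_eq_zero_iff _ _).1 h0))
    (fun a => ⟨C1.Ops.twA y a, C1.Ops.incl_twA ζ y hy a, C1.Ops.red_twA y a⟩)⟩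

/-- the quotient of the two normalisations of `σ z` and `z`, `σ` in the inertia group -/
theorem redC_inertia_div {α β : LaurentSeries (IsLocalRing.ResidueField A)} (h : RedQ A z α β)
    {σ : GQ} (hσ : σ ∈ A.inertiaSubgroupIn ℚ) :
    RedC A (coeffMap (σ : Kbar →+* Kbar) z * z⁻¹) := by
  have h1 := (h.inertia hσ).mul h.inv
  rw [mul_comm β α] at h1
  exact ⟨_, h1⟩

variable {F₀ : IntermediateField ℚ (LaurentSeries ℚ)}

theorem Cong1.redC {u : FB F₀} (hu : Cong1 F₀ A u) : RedC A (u : LaurentSeries Kbar) := hu.redQ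

theorem coe_algebraMap_mul (c : Kbar) (u : FB F₀) :
    ((algebraMap Kbar (FB F₀) c * u : FB F₀) : LaurentSeries Kbar) =
      HahnSeries.C c * (u : LaurentSeries Kbar) := by
  show ((algebraMap Kbar (FB F₀) c : FB F₀) : LaurentSeries Kbar) * (u : LaurentSeries Kbar) = _
  rw [HeckeOp1.coe_algebraMap]

theorem CongC.redC {u : FB F₀} (hu : CongC F₀ A u) : RedC A (u : LaurentSeries Kbar) := by
  obtain ⟨c, hc, h⟩ := hu
  have h1 := (RedC.const (A := A) hc).inv.mul h.redC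
  rw [coe_algebraMap_mul, ← mul_assoc, inv_mul_cancel₀ (C_ne_zero' hc), one_mul] at h1
  exact h1

theorem Cong1.congC {u : FB F₀} (hu : Cong1 F₀ A u) : CongC F₀ A u :=
  ⟨1, one_ne_zero, by rwa [map_one, one_mul]⟩

theorem CongC.ne_zero {u : FB F₀} (hu : CongC F₀ A u) : u ≠ 0 := by
  obtain ⟨c, hc, h⟩ := hu
  exact right_ne_zero_of_mul h.ne_zero

theorem CongC.one : CongC F₀ A 1 := Cong1.one.congC

theorem CongC.mul {u v : FB F₀} (hu : CongC F₀ A u) (hv : CongC F₀ A v) : CongC F₀ A (u * v) := by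
  obtain ⟨c, hc, h⟩ := hu
  obtain ⟨c', hc', h'⟩ := hv
  refine ⟨c * c', mul_ne_zero hc hc', ?_⟩
  have := h.mul h'
  rw [map_mul]
  convert this using 1
  ring

theorem CongC.inv {u : FB F₀} (hu : CongC F₀ A u) : CongC F₀ A u⁻¹ := by
  obtain ⟨c, hc, h⟩ := hu
  refine ⟨c⁻¹, inv_ne_zero hc, ?_⟩
  have := h.inv
  rwa [mul_inv, ← map_inv₀] at this

theorem CongC.const_mul {u : FB F₀} (hu : CongC F₀ A u) {c : Kbar} (hc : c ≠ 0) :
    CongC F₀ A (algebraMap Kbar (FB F₀) c * u) := by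
  obtain ⟨c', hc', h⟩ := hu
  refine ⟨c' * c⁻¹, mul_ne_zero hc' (inv_ne_zero hc), ?_⟩
  have e : algebraMap Kbar (FB F₀) (c' * c⁻¹) * (algebraMap Kbar (FB F₀) c * u) =
      algebraMap Kbar (FB F₀) c' * u := by
    rw [← mul_assoc, ← map_mul, mul_assoc, inv_mul_cancel₀ hc, mul_one]
  rwa [e]

/-- **The bridge**: an element `e` of `FB F₀` such that `e(q^m) ≡ const` at the series level lies in
`ℚ̄ˣ (1 + m_v)`. -/
theorem congC_of_redC (hG : IntGen F₀) {ℓ : ℕ} (hℓ : ℓ.Prime) (hA : A.LiesOverPrime ℓ)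
    (e : FB F₀) (m : ℕ) [NeZero m]
    (h : RedC A (ModularCurve.qExpand Kbar m (e : LaurentSeries Kbar))) : CongC F₀ A e := by
  obtain ⟨α, h⟩ := h
  have he0 : e ≠ 0 := by
    rintro rfl
    obtain ⟨hα, -, c, a, b, hc, ha, hb, hab⟩ := h
    have h0 : ModularCurve.qExpand Kbar m (((0 : FB F₀) : FB F₀) : LaurentSeries Kbar) = 0 :=
      map_zero _
    rw [h0, zero_mul] at hab
    exact mul_ne_zero (C_ne_zero' hc) (incl_ne_zero_of_red A (ha ▸ hα)) hab.symm
  obtain ⟨d0, P, Q, hP, hQ, hd0, hP0, hQ0, hePQ⟩ := exists_scaling hG A ℓ hℓ hA e he0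
  obtain ⟨hα, -, c, a, b, hc, ha, hb, hab⟩ := h
  have hiQ : incl A Q ≠ 0 := incl_ne_zero_of_red A hQ0
  have he' : (e : LaurentSeries Kbar) = HahnSeries.C d0 * (incl A P / incl A Q) := by
    rw [hePQ]
    show algebraMap Kbar (LaurentSeries Kbar) d0 * (incl A P / incl A Q) = _
    rw [GAL.E.scaling_algebraMap]
  have hVQ : ModularCurve.qExpand Kbar m (incl A Q) ≠ 0 := fun h0 =>
    hiQ (qExpand_injective m (by rw [h0, map_zero]))
  have h1 : incl A (ModularCurve.qExpand A m P * b) =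
      HahnSeries.C (c / d0) * incl A (a * ModularCurve.qExpand A m Q) := by
    rw [map_mul, map_mul, GAL.E.coeffMap_qExpand_comm, GAL.E.coeffMap_qExpand_comm]
    rw [he', map_mul, map_div₀, qExpand_C] at hab
    have hCd : (HahnSeries.C d0 : LaurentSeries Kbar) ≠ 0 := C_ne_zero' hd0
    rw [map_div₀]
    field_simp
    field_simp at hab
    linear_combination hab
  obtain ⟨t, ht, htres, hPQ⟩ := exists_unit_of_incl_eq A (c / d0) _ _ h1
    (by
      rw [map_mul, GAL.E.coeffMap_qExpand_comm, hb]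
      exact mul_ne_zero (fun h0 => hP0 (qExpand_injective m (by rw [h0, map_zero]))) hα)
    (by
      rw [map_mul, GAL.E.coeffMap_qExpand_comm, ha]
      exact mul_ne_zero hα (fun h0 => hQ0 (qExpand_injective m (by rw [h0, map_zero]))))
  have ht0 : (t : Kbar) ≠ 0 := by rw [ht]; exact div_ne_zero hc hd0
  have h2 : red A P = red A (HahnSeries.C t * Q) := by
    have h3 := congrArg (red A) hPQ
    rw [map_mul, map_mul, map_mul, GAL.E.coeffMap_qExpand_comm, GAL.E.coeffMap_qExpand_comm, ha, hb,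
      coeffMap_C'] at h3
    apply qExpand_injective (R := IsLocalRing.ResidueField A) m
    rw [map_mul, map_mul, coeffMap_C', qExpand_C]
    apply mul_right_cancel₀ hα
    rw [h3]
    ring
  have hQ' : incl A (HahnSeries.C t * Q) ∈ laurentBaseChange Kbar F₀ := by
    rw [map_mul, coeffMap_C']
    exact mul_mem (C_mem_FB F₀ _) hQ
  have hQ'0 : red A (HahnSeries.C t * Q) ≠ 0 := by
    rw [map_mul, coeffMap_C']
    exact mul_ne_zero (C_ne_zero' htres) hQ0
  have hc' : d0 * (t : Kbar) ≠ 0 := mul_ne_zero hd0 ht0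
  have hval : e = algebraMap Kbar (FB F₀) (d0 * t) *
      ((⟨incl A P, hP⟩ : FB F₀) / ⟨incl A (HahnSeries.C t * Q), hQ'⟩) := by
    apply Subtype.ext
    rw [he']
    show _ = algebraMap Kbar (LaurentSeries Kbar) (d0 * t) *
      (incl A P / incl A (HahnSeries.C t * Q))
    rw [GAL.E.scaling_algebraMap, map_mul, map_mul, coeffMap_C']
    have hCt : (HahnSeries.C (t : Kbar) : LaurentSeries Kbar) ≠ 0 := C_ne_zero' ht0
    show _ = HahnSeries.C d0 * HahnSeries.C (t : Kbar) *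
      (incl A P / (HahnSeries.C (t : Kbar) * incl A Q))
    field_simp
  have hcF : algebraMap Kbar (FB F₀) (d0 * t) ≠ 0 := (map_ne_zero _).2 hc'
  refine ⟨(d0 * t)⁻¹, inv_ne_zero hc', P, HahnSeries.C t * Q, hP, hQ', h2, hQ'0, ?_⟩
  rw [hval, map_inv₀]
  generalize ((⟨incl A P, hP⟩ : FB F₀) / ⟨incl A (HahnSeries.C t * Q), hQ'⟩) = y
  rw [← mul_assoc, inv_mul_cancel₀ hcF, one_mul]

/-- a class with a representative in `ℚ̄ˣ (1 + m_v)` lies in the plain `K_∞` -/
theorem isKinf_of_congC {n : ℕ} [NeZero n] (u : kum (FB F₀) n)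
    (h : CongC F₀ A ((u : (FB F₀)ˣ) : FB F₀)) : IsKinf A (cls u) := by
  obtain ⟨c, hc, h⟩ := h
  have hk : IsKum (FB F₀) n (algebraMap Kbar (FB F₀) c * ((u : (FB F₀)ˣ) : FB F₀)) :=
    IsKum.mul (isKum_algebraMap (FB F₀) n _) u.2
  refine ⟨⟨Units.mk0 _ h.ne_zero, hk⟩, ?_, h⟩
  exact cls_eq_of_eq_const_mul _ u c rfl

end Fermat.Agent.S43.Triv

end
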