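/-
Row 37 (S43), block TRIV (architect helper194).  `K_∞` AT LEVEL `H` : `IsKD D A x` (ONE representative, `≡ const` at ALL
the diamond conjugates of the Gauss valuation).  Generic in `F₀` (`IntGen F₀`) and in the diamond datum `D : Dia F₀ G`.
* `KD D A n`           : it is a subgroup;                      `IsKD.isKinf` : `KD ⊆` plain `K_∞`;
* `IsKD.diaW`          : stable under the diamond operators;
* `isKD_rho_sub`       : `(σ - 1) W ⊆ KD` for `σ` in the inertia group of `A`;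
* `isKD_frob_sub`      : `(φ - U_q) W ⊆ KD` for a Frobenius `φ` at `A ∣ q`;
* `IsKD.rho_inertia`, `IsKD.rho_frob`, `IsKD.UW`, `IsKD.TW` : stable under inertia, Frobenius, `U_q`, `T_l`.
-/
import Fermat.Agent.S43.Triv.RedC

set_option autoImplicit false

noncomputable section

namespace Fermat.Agent.S43.Triv

open ModularCurve AlgebraicCurve Fermat.Agent.S24 Fermat.Agent.S24.B Fermat.Agent.S48.BB
  Fermat.Agent.S48.BB.M Fermat.Agent.S48.BB.E
open Fermat.Agent.GAL.E (GQ incl red)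

variable {F₀ : IntermediateField ℚ (LaurentSeries ℚ)} {A : ValuationSubring Kbar}
  {G : Type} [Group G] (D : Dia F₀ G) {n : ℕ}

theorem end_sub (f : AddMonoid.End (W1 F₀ n)) (x y : W1 F₀ n) : f (x - y) = f x - f y :=
  map_sub (f : W1 F₀ n →+ W1 F₀ n) x y

theorem end_neg (f : AddMonoid.End (W1 F₀ n)) (x : W1 F₀ n) : f (-x) = - f x :=
  map_neg (f : W1 F₀ n →+ W1 F₀ n) x

theorem cls_sub (a b : kum (FB F₀) n) : cls a - cls b = cls (a * b⁻¹) := by
  rw [cls_mul, cls_inv]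
  exact sub_eq_add_neg (G := W (FB F₀) n) _ _

theorem coe_mul_inv (a b : kum (FB F₀) n) :
    (((a * b⁻¹ : kum (FB F₀) n) : (FB F₀)ˣ) : FB F₀) =
      ((a : (FB F₀)ˣ) : FB F₀) * (((b : (FB F₀)ˣ) : FB F₀))⁻¹ := by
  rw [Subgroup.coe_mul, Subgroup.coe_inv, Units.val_mul, Units.val_inv_eq_inv_val]

namespace Dia

theorem diaW_cls (d : G) (u : kum (FB F₀) n) :
    D.diaW n d (cls u) = cls (⟨autU (D.dia d) (u : (FB F₀)ˣ),
      autU_mem_kum (D.dia d) (u : (FB F₀)ˣ) u.2⟩ : kum (FB F₀) n) :=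
  autW_cls (D.dia d) u

theorem diaW_mul (d d' : G) (x : W1 F₀ n) :
    D.diaW n (d * d') x = D.diaW n d (D.diaW n d' x) := by
  have h : autW (D.dia d * D.dia d') n = autW (D.dia d) n * autW (D.dia d') n := autW_mul _ _ n
  rw [← map_mul] at h
  exact DFunLike.congr_fun h x

theorem diaW_one (x : W1 F₀ n) : D.diaW n 1 x = x := by
  have h : autW (D.dia 1) n = 1 := by rw [map_one, autW_one]
  exact DFunLike.congr_fun h x

theorem diaW_inv_diaW (d : G) (x : W1 F₀ n) : D.diaW n d⁻¹ (D.diaW n d x) = x := by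
  rw [← diaW_mul, inv_mul_cancel, diaW_one]

theorem diaW_diaW_inv (d : G) (x : W1 F₀ n) : D.diaW n d (D.diaW n d⁻¹ x) = x := by
  rw [← diaW_mul, mul_inv_cancel, diaW_one]

/-- the diamond operators commute with Galois -/
theorem rho_diaW (σ : GQ) (d : G) (x : W1 F₀ n) :
    rho F₀ n σ (D.diaW n d x) = D.diaW n d (rho F₀ n σ x) :=
  DFunLike.congr_fun (commute_rho_autW (D.dia d) (fun σ u => D.galF_dia σ d u) n σ).eq x

end Dia

theorem IsKD.zero : IsKD D A (0 : W1 F₀ n) :=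
  ⟨1, cls_one, fun d => by
    have : D.dia d (((1 : kum (FB F₀) n) : (FB F₀)ˣ) : FB F₀) = 1 := by simp
    rw [this]
    exact CongC.one⟩

variable {D}

theorem IsKD.add {x y : W1 F₀ n} (hx : IsKD D A x) (hy : IsKD D A y) : IsKD D A (x + y) := by
  obtain ⟨u, rfl, hu⟩ := hx
  obtain ⟨v, rfl, hv⟩ := hy
  refine ⟨u * v, cls_mul u v, fun d => ?_⟩
  rw [Subgroup.coe_mul, Units.val_mul, map_mul]
  exact (hu d).mul (hv d)

theorem IsKD.neg {x : W1 F₀ n} (hx : IsKD D A x) : IsKD D A (-x) := by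
  obtain ⟨u, rfl, hu⟩ := hx
  refine ⟨u⁻¹, cls_inv u, fun d => ?_⟩
  rw [Subgroup.coe_inv, Units.val_inv_eq_inv_val, map_inv₀]
  exact (hu d).inv

theorem IsKD.sub {x y : W1 F₀ n} (hx : IsKD D A x) (hy : IsKD D A y) : IsKD D A (x - y) := by
  have e : x - y = x + -y := sub_eq_add_neg x y
  rw [e]
  exact hx.add hy.neg

/-- `K_∞` (all conjugates) as a subgroup. -/
def KD (D : Dia F₀ G) (A : ValuationSubring Kbar) (n : ℕ) : AddSubgroup (W1 F₀ n) where
  carrier := {x | IsKD D A x}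
  zero_mem' := IsKD.zero D
  add_mem' := IsKD.add
  neg_mem' := IsKD.neg

theorem mem_KD {x : W1 F₀ n} : x ∈ KD D A n ↔ IsKD D A x := Iff.rfl

/-- `KD ⊆` plain `K_∞`. -/
theorem IsKD.isKinf [NeZero n] {x : W1 F₀ n} (hx : IsKD D A x) : IsKinf A x := by
  obtain ⟨u, rfl, hu⟩ := hx
  have h1 := hu 1
  rw [map_one] at h1
  exact isKinf_of_congC u h1

/-- stability under the diamond operators -/
theorem IsKD.diaW {x : W1 F₀ n} (hx : IsKD D A x) (d : G) : IsKD D A (D.diaW n d x) := by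
  obtain ⟨u, rfl, hu⟩ := hx
  refine ⟨_, (D.diaW_cls d u).symm, fun d' => ?_⟩
  have := hu (d' * d)
  rwa [map_mul] at this

/-- **The criterion.** -/
theorem isKD_of_redC (hG : IntGen F₀) {ℓ : ℕ} (hℓ : ℓ.Prime) (hA : A.LiesOverPrime ℓ)
    (e : kum (FB F₀) n) (m : ℕ) [NeZero m]
    (h : ∀ d : G, RedC A (qExpand Kbar m
      ((D.dia d ((e : (FB F₀)ˣ) : FB F₀) : FB F₀) : LaurentSeries Kbar))) :
    IsKD D A (cls e) :=
  ⟨e, rfl, fun d => congC_of_redC hG hℓ hA _ m (h d)⟩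

/-- **Trivial inclusion 1**: `(σ - 1) W ⊆ KD` for `σ` in the inertia group. -/
theorem isKD_rho_sub (hG : IntGen F₀) {ℓ : ℕ} (hℓ : ℓ.Prime)
    (hA : A.LiesOverPrime ℓ) (σ : GQ) (hσ : σ ∈ A.inertiaSubgroupIn ℚ) (x : W1 F₀ n) :
    IsKD D A (rho F₀ n σ x - x) := by
  obtain ⟨u, rfl⟩ := cls_surjective x
  rw [rho_cls, cls_sub]
  refine isKD_of_redC hG hℓ hA _ 1 fun d => ?_
  rw [qExpand_one_apply, coe_mul_inv, map_mul, map_inv₀]
  set u0 : FB F₀ := ((u : (FB F₀)ˣ) : FB F₀) with hu0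
  have hne : D.dia d u0 ≠ 0 := (map_ne_zero_iff _ (D.dia d).injective).2 (Units.ne_zero _)
  obtain ⟨α, β, hαβ⟩ := exists_redQ hG A ℓ hℓ hA (D.dia d u0) hne
  have h1 := redC_inertia_div hαβ hσ
  have e1 : D.dia d (galF F₀ σ u0) = galF F₀ σ (D.dia d u0) := (D.galF_dia σ d u0).symm
  show RedC A ((D.dia d (galF F₀ σ u0) * (D.dia d u0)⁻¹ : FB F₀) : LaurentSeries Kbar)
  rw [e1]
  exact h1

/-- **Trivial inclusion 2**: `(φ - U_q) W ⊆ KD` for a Frobenius `φ` at `A ∣ q`. -/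
theorem isKD_frob_sub (hG : IntGen F₀) {q : ℕ} [NeZero q] (hq : q.Prime)
    (hA : A.LiesOverPrime q) (X : Ops.U.UOp F₀ q)
    (hX : ∀ (d : G) (u : FB F₀), X.U (D.dia d u) = D.dia d (X.U u))
    (φ : GQ) (hφ : A.IsFrobeniusAt φ q) (x : W1 F₀ n) :
    IsKD D A (rho F₀ n φ x - X.UW n x) := by
  obtain ⟨u, rfl⟩ := cls_surjective x
  have : Fact q.Prime := ⟨hq⟩
  have : CharP (IsLocalRing.ResidueField A) q := GAL.E.charP_residueField A q hq hA
  rw [rho_cls, X.UW_cls, cls_sub]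
  refine isKD_of_redC hG hq hA _ q fun d => ?_
  rw [coe_mul_inv, map_mul, map_inv₀]
  set u0 : FB F₀ := ((u : (FB F₀)ˣ) : FB F₀) with hu0
  have hne : D.dia d u0 ≠ 0 := (map_ne_zero_iff _ (D.dia d).injective).2 (Units.ne_zero _)
  obtain ⟨α, β, hu⟩ := exists_redQ hG A q hq hA (D.dia d u0) hne
  set Fr := coeffMap (frobenius (IsLocalRing.ResidueField A) q) with hFr
  have h1 : RedQ A ((galF F₀ φ (D.dia d u0) : FB F₀) : LaurentSeries Kbar) (Fr α) (Fr β) :=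
    hu.frobenius q hφ
  have h4 : RedQ A (qExpand Kbar q ((X.U (D.dia d u0) : FB F₀) : LaurentSeries Kbar)) (α ^ q)
      (β ^ q) := by
    rw [X.qExpand_U]
    exact hu.prod_twist hq hA
  have h5 := (h1.qExpand q).mul h4.inv
  refine ⟨qExpand _ q (Fr α) * β ^ q, ?_⟩
  convert h5 using 1
  · show qExpand Kbar q ((D.dia d (galF F₀ φ u0) * (D.dia d (X.U u0))⁻¹ : FB F₀) :
      LaurentSeries Kbar) = _
    rw [← D.galF_dia, ← hX]
    show qExpand Kbar q (((galF F₀ φ (D.dia d u0) : FB F₀) : LaurentSeries Kbar) *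
      ((X.U (D.dia d u0) : FB F₀) : LaurentSeries Kbar)⁻¹) = _
    rw [map_mul, map_inv₀]
  · rw [GAL.E.pow_char_eq_qExpand q α, GAL.E.pow_char_eq_qExpand q β]
    ring

/-- stability under the inertia group -/
theorem IsKD.rho_inertia (hG : IntGen F₀) {ℓ : ℕ} (hℓ : ℓ.Prime) (hA : A.LiesOverPrime ℓ) (σ : GQ)
    (hσ : σ ∈ A.inertiaSubgroupIn ℚ) {x : W1 F₀ n} (hx : IsKD D A x) :
    IsKD D A (rho F₀ n σ x) := by
  have h := (isKD_rho_sub (D := D) hG hℓ hA σ hσ x).add hx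
  have e : rho F₀ n σ x - x + x = rho F₀ n σ x := sub_add_cancel (G := W (FB F₀) n) _ _
  rwa [e] at h

/-- stability under a Frobenius -/
theorem IsKD.rho_frob (hG : IntGen F₀) {q : ℕ} (hq : q.Prime) (hA : A.LiesOverPrime q) (φ : GQ)
    (hφ : A.IsFrobeniusAt φ q) {x : W1 F₀ n} (hx : IsKD D A x) : IsKD D A (rho F₀ n φ x) := by
  obtain ⟨u, rfl, hu⟩ := hx
  rw [rho_cls]
  refine isKD_of_redC hG hq hA _ 1 fun d => ?_
  rw [qExpand_one_apply]
  show RedC A ((D.dia d (galF F₀ φ ((u : (FB F₀)ˣ) : FB F₀)) : FB F₀) : LaurentSeries Kbar)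
  rw [← D.galF_dia]
  exact (hu d).redC.frobenius hq hA hφ

/-- stability under `U_q` (any residue characteristic) -/
theorem IsKD.UW (hG : IntGen F₀) {ℓ : ℕ} (hℓ : ℓ.Prime) (hA : A.LiesOverPrime ℓ) {q : ℕ} [NeZero q]
    (X : Ops.U.UOp F₀ q) (hX : ∀ (d : G) (u : FB F₀), X.U (D.dia d u) = D.dia d (X.U u))
    {x : W1 F₀ n} (hx : IsKD D A x) : IsKD D A (X.UW n x) := by
  obtain ⟨u, rfl, hu⟩ := hx
  rw [X.UW_cls]
  refine isKD_of_redC hG hℓ hA _ q fun d => ?_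
  show RedC A (qExpand Kbar q ((D.dia d (X.U ((u : (FB F₀)ˣ) : FB F₀)) : FB F₀) :
    LaurentSeries Kbar))
  rw [← hX, X.qExpand_U]
  refine RedC.prod _ _ fun b _ => (hu d).redC.twist _ q (NeZero.ne q) ?_
  rw [← pow_mul, mul_comm, pow_mul, (isPrimitiveRoot_zetaK q).pow_eq_one, one_pow]

/-- stability under `T_l` (any residue characteristic); the diamond of `T_l` is one of the `⟨d⟩`. -/
theorem IsKD.TW (hG : IntGen F₀) {ℓ : ℕ} (hℓ : ℓ.Prime) (hA : A.LiesOverPrime ℓ) {l : ℕ} [NeZero l]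
    (H : HeckeOp1 F₀ l) (dl : G) (hdl : H.D = D.dia dl)
    (hH : ∀ (d : G) (u : FB F₀), H.T (D.dia d u) = D.dia d (H.T u))
    {x : W1 F₀ n} (hx : IsKD D A x) : IsKD D A (H.TW n x) := by
  obtain ⟨u, rfl, hu⟩ := hx
  rw [H.TW_cls]
  refine isKD_of_redC hG hℓ hA _ l fun d => ?_
  show RedC A (qExpand Kbar l ((D.dia d (H.T ((u : (FB F₀)ˣ) : FB F₀)) : FB F₀) :
    LaurentSeries Kbar))
  have : NeZero (l * l) := ⟨mul_ne_zero (NeZero.ne l) (NeZero.ne l)⟩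
  rw [← hH, H.qExpand_T, hdl]
  refine RedC.mul ?_ ?_
  · have h1 := (hu (dl * d)).redC.qExpand (l * l)
    rwa [map_mul] at h1
  · refine RedC.prod _ _ fun b _ => (hu d).redC.twist _ l (NeZero.ne l) ?_
    rw [← pow_mul, mul_comm, pow_mul, (isPrimitiveRoot_zetaK l).pow_eq_one, one_pow]

end Fermat.Agent.S43.Triv

end
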