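/-
Row 37 (S43), block TRIV (architect helper194).  THE `w`-TRANSPORTED STATEMENTS (`K_0 = w⁻¹ K_∞`), formal from
`Triv/KD.lean` and the relations of an Atkin-Lehner datum `D : WTw F₀ G`.   `δ_σ := ⟨e σ⟩⁻¹`, `U_q^* := w⁻¹ U_q w`.
* `K0D D A n`        : subgroup;  `IsK0D.diaW` : stable under the diamond operators;
* `isK0D_rho_sub`    : `(σ - ⟨e σ⟩⁻¹) W ⊆ K_0` for `σ` in the inertia group of `A`;
* `isK0D_frob_sub`   : `(φ - U_q^*) W ⊆ K_0` for a Frobenius `φ` at `A ∣ q` with `e φ = 1`;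
* `IsK0D.rho_inertia`, `IsK0D.rho_frob`, `IsK0D.UsW`, `IsK0D.of_comm` : stabilities;
* the same for the plain versions (`isK0_rho_sub`, `isK0_frob_sub`).
-/
import Fermat.Agent.S43.Triv.KD

set_option autoImplicit false

noncomputable section

namespace Fermat.Agent.S43.Triv

open ModularCurve AlgebraicCurve Fermat.Agent.S24 Fermat.Agent.S24.B Fermat.Agent.S48.BB
  Fermat.Agent.S48.BB.M Fermat.Agent.S48.BB.E
open Fermat.Agent.GAL.E (GQ incl red)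

variable {F₀ : IntermediateField ℚ (LaurentSeries ℚ)} {A : ValuationSubring Kbar}
  {G : Type} [CommGroup G] (D : WTw F₀ G) {n : ℕ}

namespace WTw

theorem wWinv_wW (x : W1 F₀ n) : D.wWinv n (D.wW n x) = x := by
  have h : autW (D.w⁻¹ * D.w) n = autW D.w⁻¹ n * autW D.w n := autW_mul _ _ n
  rw [inv_mul_cancel, autW_one] at h
  exact (DFunLike.congr_fun h x).symm

theorem wW_wWinv (x : W1 F₀ n) : D.wW n (D.wWinv n x) = x := by
  have h : autW (D.w * D.w⁻¹) n = autW D.w n * autW D.w⁻¹ n := autW_mul _ _ n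
  rw [mul_inv_cancel, autW_one] at h
  exact (DFunLike.congr_fun h x).symm

/-- `w ⟨d⟩ = ⟨d⟩⁻¹ w` -/
theorem wW_diaW (d : G) (x : W1 F₀ n) : D.wW n (D.diaW n d x) = D.diaW n d⁻¹ (D.wW n x) := by
  obtain ⟨u, rfl⟩ := cls_surjective x
  show autW D.w n (autW (D.dia d) n (cls u)) = autW (D.dia d⁻¹) n (autW D.w n (cls u))
  rw [autW_cls, autW_cls, autW_cls, autW_cls]
  refine congrArg cls (Subtype.ext (Units.ext ?_))
  exact D.w_dia d _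

/-- `σ w = w ⟨e σ⟩ σ` -/
theorem rho_wW (σ : GQ) (x : W1 F₀ n) :
    rho F₀ n σ (D.wW n x) = D.wW n (D.diaW n (D.e σ) (rho F₀ n σ x)) := by
  obtain ⟨u, rfl⟩ := cls_surjective x
  show rho F₀ n σ (autW D.w n (cls u)) = autW D.w n (autW (D.dia (D.e σ)) n (rho F₀ n σ (cls u)))
  rw [autW_cls, rho_cls, rho_cls, autW_cls, autW_cls]
  refine congrArg cls (Subtype.ext (Units.ext ?_))
  exact D.galF_w σ _

/-- `w σ = ⟨e σ⟩ σ w` -/
theorem wW_rho (σ : GQ) (x : W1 F₀ n) :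
    D.wW n (rho F₀ n σ x) = D.diaW n (D.e σ) (rho F₀ n σ (D.wW n x)) := by
  rw [rho_wW, wW_diaW, D.diaW_diaW_inv]

theorem UsW_apply {q : ℕ} [NeZero q] (X : Ops.U.UOp F₀ q) (x : W1 F₀ n) :
    D.UsW X n x = D.wWinv n (X.UW n (D.wW n x)) := rfl

/-- `w (σ - ⟨e σ⟩⁻¹) x = (σ - 1) (⟨e σ⟩ w x)` -/
theorem wW_rho_sub (σ : GQ) (x : W1 F₀ n) :
    D.wW n (rho F₀ n σ x - D.diaW n (D.e σ)⁻¹ x) =
      rho F₀ n σ (D.diaW n (D.e σ) (D.wW n x)) - D.diaW n (D.e σ) (D.wW n x) := by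
  rw [end_sub, D.wW_rho, D.wW_diaW, inv_inv, D.rho_diaW]

/-- `w (φ - U^*) x = (φ - U) (w x)` if `e φ = 1` -/
theorem wW_frob_sub {q : ℕ} [NeZero q] (X : Ops.U.UOp F₀ q) (φ : GQ) (hφ1 : D.e φ = 1)
    (x : W1 F₀ n) :
    D.wW n (rho F₀ n φ x - D.UsW X n x) = rho F₀ n φ (D.wW n x) - X.UW n (D.wW n x) := by
  rw [end_sub, D.wW_rho, hφ1, D.diaW_one, D.UsW_apply, D.wW_wWinv]

end WTw

/-! ### all the conjugates -/

theorem IsK0D.zero : IsK0D D A (0 : W1 F₀ n) := by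
  show IsKD D.toDia A (D.wW n 0)
  rw [map_zero]
  exact IsKD.zero _

variable {D}

theorem IsK0D.add {x y : W1 F₀ n} (hx : IsK0D D A x) (hy : IsK0D D A y) : IsK0D D A (x + y) := by
  show IsKD D.toDia A (D.wW n (x + y))
  rw [map_add]
  exact IsKD.add hx hy

theorem IsK0D.neg {x : W1 F₀ n} (hx : IsK0D D A x) : IsK0D D A (-x) := by
  show IsKD D.toDia A (D.wW n (-x))
  rw [end_neg]
  exact IsKD.neg hx

theorem IsK0D.sub {x y : W1 F₀ n} (hx : IsK0D D A x) (hy : IsK0D D A y) : IsK0D D A (x - y) := by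
  show IsKD D.toDia A (D.wW n (x - y))
  rw [end_sub]
  exact IsKD.sub hx hy

/-- `K_0` (all conjugates) as a subgroup. -/
def K0D (D : WTw F₀ G) (A : ValuationSubring Kbar) (n : ℕ) : AddSubgroup (W1 F₀ n) where
  carrier := {x | IsK0D D A x}
  zero_mem' := IsK0D.zero D
  add_mem' := IsK0D.add
  neg_mem' := IsK0D.neg

theorem mem_K0D {x : W1 F₀ n} : x ∈ K0D D A n ↔ IsK0D D A x := Iff.rfl

theorem IsK0D.isK0 [NeZero n] {x : W1 F₀ n} (hx : IsK0D D A x) : IsK0 D A x := IsKD.isKinf hx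

theorem IsK0D.diaW {x : W1 F₀ n} (hx : IsK0D D A x) (d : G) : IsK0D D A (D.diaW n d x) := by
  show IsKD D.toDia A (D.wW n (D.diaW n d x))
  rw [D.wW_diaW]
  exact IsKD.diaW hx d⁻¹

/-- an operator `t` with `w t = t' w`, `t'` preserving `K_∞`, preserves `K_0` -/
theorem IsK0D.of_comm (t t' : AddMonoid.End (W1 F₀ n)) (h : ∀ x, D.wW n (t x) = t' (D.wW n x))
    (ht' : ∀ x, IsKD D.toDia A x → IsKD D.toDia A (t' x)) {x : W1 F₀ n} (hx : IsK0D D A x) :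
    IsK0D D A (t x) := by
  show IsKD D.toDia A (D.wW n (t x))
  rw [h]
  exact ht' _ hx

/-- **Transported inclusion 1**: `(σ - ⟨e σ⟩⁻¹) W ⊆ K_0` for `σ` in the inertia group. -/
theorem isK0D_rho_sub (hG : IntGen F₀) {ℓ : ℕ} (hℓ : ℓ.Prime)
    (hA : A.LiesOverPrime ℓ) (σ : GQ) (hσ : σ ∈ A.inertiaSubgroupIn ℚ) (x : W1 F₀ n) :
    IsK0D D A (rho F₀ n σ x - D.diaW n (D.e σ)⁻¹ x) := by
  show IsKD D.toDia A (D.wW n (rho F₀ n σ x - D.diaW n (D.e σ)⁻¹ x))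
  rw [D.wW_rho_sub]
  exact isKD_rho_sub hG hℓ hA σ hσ _

/-- **Transported inclusion 2**: `(φ - U_q^*) W ⊆ K_0` for a Frobenius `φ` at `A ∣ q` with `e φ = 1`
(i.e. `φ` fixes `μ_q`). -/
theorem isK0D_frob_sub (hG : IntGen F₀) {q : ℕ} [NeZero q] (hq : q.Prime)
    (hA : A.LiesOverPrime q) (X : Ops.U.UOp F₀ q)
    (hX : ∀ (d : G) (u : FB F₀), X.U (D.dia d u) = D.dia d (X.U u))
    (φ : GQ) (hφ : A.IsFrobeniusAt φ q) (hφ1 : D.e φ = 1) (x : W1 F₀ n) :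
    IsK0D D A (rho F₀ n φ x - D.UsW X n x) := by
  show IsKD D.toDia A (D.wW n (rho F₀ n φ x - D.UsW X n x))
  rw [D.wW_frob_sub X φ hφ1]
  exact isKD_frob_sub hG hq hA X hX φ hφ _

theorem IsK0D.rho_inertia (hG : IntGen F₀) {ℓ : ℕ} (hℓ : ℓ.Prime) (hA : A.LiesOverPrime ℓ) (σ : GQ)
    (hσ : σ ∈ A.inertiaSubgroupIn ℚ) {x : W1 F₀ n} (hx : IsK0D D A x) :
    IsK0D D A (rho F₀ n σ x) := by
  show IsKD D.toDia A (D.wW n (rho F₀ n σ x))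
  rw [D.wW_rho]
  exact (IsKD.rho_inertia hG hℓ hA σ hσ hx).diaW _

theorem IsK0D.rho_frob (hG : IntGen F₀) {q : ℕ} (hq : q.Prime) (hA : A.LiesOverPrime q) (φ : GQ)
    (hφ : A.IsFrobeniusAt φ q) {x : W1 F₀ n} (hx : IsK0D D A x) : IsK0D D A (rho F₀ n φ x) := by
  show IsKD D.toDia A (D.wW n (rho F₀ n φ x))
  rw [D.wW_rho]
  exact (IsKD.rho_frob hG hq hA φ hφ hx).diaW _

theorem IsK0D.UsW (hG : IntGen F₀) {ℓ : ℕ} (hℓ : ℓ.Prime) (hA : A.LiesOverPrime ℓ) {q : ℕ}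
    [NeZero q] (X : Ops.U.UOp F₀ q)
    (hX : ∀ (d : G) (u : FB F₀), X.U (D.dia d u) = D.dia d (X.U u))
    {x : W1 F₀ n} (hx : IsK0D D A x) : IsK0D D A (D.UsW X n x) := by
  show IsKD D.toDia A (D.wW n (D.UsW X n x))
  rw [D.UsW_apply, D.wW_wWinv]
  exact IsKD.UW hG hℓ hA X hX hx

/-! ### plain versions -/

theorem isK0_rho_sub [NeZero n] (hG : IntGen F₀) {ℓ : ℕ} (hℓ : ℓ.Prime)
    (hA : A.LiesOverPrime ℓ) (σ : GQ) (hσ : σ ∈ A.inertiaSubgroupIn ℚ) (x : W1 F₀ n) :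
    IsK0 D A (rho F₀ n σ x - D.diaW n (D.e σ)⁻¹ x) :=
  (isK0D_rho_sub hG hℓ hA σ hσ x).isK0

theorem isK0_frob_sub [NeZero n] (hG : IntGen F₀) {q : ℕ} [NeZero q] (hq : q.Prime)
    (hA : A.LiesOverPrime q) (X : Ops.U.UOp F₀ q) (φ : GQ) (hφ : A.IsFrobeniusAt φ q)
    (hφ1 : D.e φ = 1) (x : W1 F₀ n) :
    IsK0 D A (rho F₀ n φ x - D.UsW X n x) := by
  show IsKinf A (D.wW n (rho F₀ n φ x - D.UsW X n x))
  rw [D.wW_frob_sub X φ hφ1]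
  exact isKinf_frob_sub hG hq hA X φ hφ _

end Fermat.Agent.S43.Triv

end
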