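/-
Row 37 (S43), block TRIV (architect helper194).  COMPATIBILITY OF `K_∞`, `K_0` WITH `π^* = piUp`, `π_* = piDown`
(`X : Ops.Pi.Pair F₀ F₀'`, `F₀ ≤ F₀'`; `D : Dia F₀' G` the diamonds of the upper level, trivial on `FB F₀`).
* `IsKinf.piUp`    (e) : `π^* K_∞^0 ⊆ K_∞` (all conjugates);
* `IsKD.piDown`    (c) : `π_* K_∞ ⊆ K_∞^0`, as soon as `α (Norm y) = ∏_{d ∈ s} ⟨d⟩ y`;
* `IsK0.piUp`, `IsK0D.piDown` : the same for `K_0`, for compatible Atkin-Lehner data;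
-/
import Fermat.Agent.S43.Triv.K0
import Fermat.Agent.S43.Ops.Pi.Kum

set_option autoImplicit false

noncomputable section

namespace Fermat.Agent.S43.Triv

open ModularCurve AlgebraicCurve Fermat.Agent.S24 Fermat.Agent.S24.B Fermat.Agent.S48.BB
  Fermat.Agent.S48.BB.M Fermat.Agent.S48.BB.E Fermat.Agent.S48.BB.T Fermat.Agent.S43.Ops.Pi
  Fermat.Agent.S37.HeckeInputs
open Fermat.Agent.GAL.E (GQ incl red)

variable {F₀ F₀' : IntermediateField ℚ (LaurentSeries ℚ)} {A : ValuationSubring Kbar} {n : ℕ}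

theorem Cong1.alphaB (hF : F₀ ≤ F₀') {u : FB F₀} (hu : Cong1 F₀ A u) :
    Cong1 F₀' A (alphaB hF u) := by
  obtain ⟨P, Q, hP, hQ, hPQ, hQ0, rfl⟩ := hu
  refine ⟨P, Q, GAL.KLInputs.laurentBaseChange_mono hF hP,
    GAL.KLInputs.laurentBaseChange_mono hF hQ, hPQ, hQ0, ?_⟩
  rw [map_div₀]
  rfl

section Dia

variable {G : Type} [Group G] (X : Pair F₀ F₀') (D : Dia F₀' G)

/-- (e) `π^* K_∞^0 ⊆ K_∞`. -/
theorem IsKinf.piUp (hfix : ∀ (d : G) (u : FB F₀), D.dia d (alphaB X.le u) = alphaB X.le u)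
    {x : W1 F₀ n} (hx : IsKinf A x) : IsKD D A (Ops.Pi.piUp X n x) := by
  obtain ⟨u, rfl, hu⟩ := hx
  refine ⟨_, (piUp_cls X u).symm, fun d => ?_⟩
  show CongC F₀' A (D.dia d (alphaB X.le ((u : (FB F₀)ˣ) : FB F₀)))
  rw [hfix]
  exact (hu.alphaB X.le).congC

/-- (c) `π_* K_∞ ⊆ K_∞^0`. -/
theorem IsKD.piDown [NeZero n] (hG : IntGen F₀) {ℓ : ℕ} (hℓ : ℓ.Prime) (hA : A.LiesOverPrime ℓ)
    (s : Finset G)
    (hs : ∀ y : FB F₀', alphaB X.le (normAlong (alphaB X.le) y) = ∏ d ∈ s, D.dia d y)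
    {x : W1 F₀' n} (hx : IsKD D A x) : IsKinf A (Ops.Pi.piDown X n x) := by
  obtain ⟨u, rfl, hu⟩ := hx
  rw [piDown_cls]
  apply isKinf_of_congC
  apply congC_of_redC hG hℓ hA _ 1
  rw [qExpand_one_apply]
  show RedC A ((normAlong (alphaB X.le) ((u : (FB F₀')ˣ) : FB F₀') : FB F₀) : LaurentSeries Kbar)
  rw [← coe_alphaB X.le, hs]
  have e : ((∏ d ∈ s, D.dia d ((u : (FB F₀')ˣ) : FB F₀') : FB F₀') : LaurentSeries Kbar) =
      ∏ d ∈ s, ((D.dia d ((u : (FB F₀')ˣ) : FB F₀') : FB F₀') : LaurentSeries Kbar) :=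
    map_prod (laurentBaseChange Kbar F₀').val _ _
  rw [e]
  exact RedC.prod _ _ fun d _ => (hu d).redC

end Dia

section W

variable {G₀ G : Type} [CommGroup G₀] [CommGroup G] (X : Pair F₀ F₀') (D₀ : WTw F₀ G₀)
  (D : WTw F₀' G)

/-- `w π^* = π^* w` -/
theorem wW_piUp (hw : ∀ u : FB F₀, D.w (alphaB X.le u) = alphaB X.le (D₀.w u)) (x : W1 F₀ n) :
    D.wW n (piUp X n x) = piUp X n (D₀.wW n x) := by
  obtain ⟨u, rfl⟩ := cls_surjective x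
  show autW D.w n (piUp X n (cls u)) = piUp X n (autW D₀.w n (cls u))
  rw [piUp_cls, autW_cls, autW_cls, piUp_cls]
  refine congrArg cls (Subtype.ext (Units.ext ?_))
  exact hw _

/-- `w π_* = π_* w` -/
theorem wW_piDown (hw : ∀ u : FB F₀, D.w (alphaB X.le u) = alphaB X.le (D₀.w u)) (x : W1 F₀' n) :
    D₀.wW n (piDown X n x) = piDown X n (D.wW n x) := by
  obtain ⟨u, rfl⟩ := cls_surjective x
  show autW D₀.w n (piDown X n (cls u)) = piDown X n (autW D.w n (cls u))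
  rw [piDown_cls, autW_cls, autW_cls, piDown_cls]
  refine congrArg cls (Subtype.ext (Units.ext ?_))
  exact (normAlong_ringEquiv (alphaB X.le) D₀.w.toRingEquiv D.w.toRingEquiv hw _).symm

/-- (e) `π^* K_0^0 ⊆ K_0`. -/
theorem IsK0.piUp (hw : ∀ u : FB F₀, D.w (alphaB X.le u) = alphaB X.le (D₀.w u))
    (hfix : ∀ (d : G) (u : FB F₀), D.dia d (alphaB X.le u) = alphaB X.le u)
    {x : W1 F₀ n} (hx : IsK0 D₀ A x) : IsK0D D A (Ops.Pi.piUp X n x) := by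
  show IsKD D.toDia A (D.wW n (Ops.Pi.piUp X n x))
  rw [wW_piUp X D₀ D hw]
  exact IsKinf.piUp X D.toDia hfix hx

/-- (c) `π_* K_0 ⊆ K_0^0`. -/
theorem IsK0D.piDown [NeZero n] (hG : IntGen F₀) {ℓ : ℕ} (hℓ : ℓ.Prime) (hA : A.LiesOverPrime ℓ)
    (hw : ∀ u : FB F₀, D.w (alphaB X.le u) = alphaB X.le (D₀.w u)) (s : Finset G)
    (hs : ∀ y : FB F₀', alphaB X.le (normAlong (alphaB X.le) y) = ∏ d ∈ s, D.dia d y)
    {x : W1 F₀' n} (hx : IsK0D D A x) : IsK0 D₀ A (Ops.Pi.piDown X n x) := by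
  show IsKinf A (D₀.wW n (Ops.Pi.piDown X n x))
  rw [wW_piDown X D₀ D hw]
  exact IsKD.piDown X D.toDia hG hℓ hA s hs hx

end W

end Fermat.Agent.S43.Triv

end
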