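/-
Row 37 (S43), block TRIV (architect helper194).  THE GAUSS VALUATION RING of `FB F₀ ⊆ ℚ̄((q))` attached to `A ∣ ℓ`
(`A` is not discrete) and the BRIDGE between the predicates of TRIV and those of `T2/Res.lean` (LEMMA RES):
* `gaussV hG hℓ hA : ValuationSubring (FB F₀)`;
* `cong1_iff`  : `Cong1 F₀ A u ↔ T2.IsOneAt (gaussV ..) u`;
* `congC_iff`  : `CongC F₀ A u ↔ T2.IsC Kbar (gaussV ..) u`;
* `algebraMap_mem_gaussV_iff` : `gaussV ∩ ℚ̄ = A`;   `valuation_natCast_eq_one` : `v(m) = 1` if `ℓ ∤ m`.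
-/
import Fermat.Agent.S43.Triv.RedC
import Fermat.Agent.S43.T2.Res
import Fermat.Agent.GAL.KLInputs.Arith

set_option autoImplicit false

noncomputable section

namespace Fermat.Agent.S43.Triv

open ModularCurve AlgebraicCurve Fermat.Agent.S24 Fermat.Agent.S24.B Fermat.Agent.S48.BB
  Fermat.Agent.S48.BB.M Fermat.Agent.S48.BB.E
open Fermat.Agent.GAL.E (GQ incl red)

variable {F₀ : IntermediateField ℚ (LaurentSeries ℚ)} {A : ValuationSubring Kbar}

/-- `u = P / Q` with `P`, `Q` integral elements of `FB F₀`, `Q` of nonzero reduction. -/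
def IsGInt (F₀ : IntermediateField ℚ (LaurentSeries ℚ)) (A : ValuationSubring Kbar) (u : FB F₀) :
    Prop :=
  ∃ P Q : LaurentSeries A, incl A P ∈ laurentBaseChange Kbar F₀ ∧
    incl A Q ∈ laurentBaseChange Kbar F₀ ∧ red A Q ≠ 0 ∧
    (u : LaurentSeries Kbar) * incl A Q = incl A P

variable (F₀ A) in
/-- The Gauss ring, as a subring. -/
def gaussSub : Subring (FB F₀) where
  carrier := {u | IsGInt F₀ A u}
  mul_mem' := by
    rintro f g ⟨P, Q, hP, hQ, hQ0, h⟩ ⟨P', Q', hP', hQ', hQ0', h'⟩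
    refine ⟨P * P', Q * Q', ?_, ?_, ?_, ?_⟩
    · rw [map_mul]; exact mul_mem hP hP'
    · rw [map_mul]; exact mul_mem hQ hQ'
    · rw [map_mul]; exact mul_ne_zero hQ0 hQ0'
    · rw [map_mul, map_mul, ← h, ← h']
      show (f : LaurentSeries Kbar) * (g : LaurentSeries Kbar) * _ = _
      ring
  one_mem' := ⟨1, 1, by rw [map_one]; exact one_mem _, by rw [map_one]; exact one_mem _,
    by rw [map_one]; exact one_ne_zero, by
      show (1 : LaurentSeries Kbar) * _ = _
      rw [one_mul]⟩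
  add_mem' := by
    rintro f g ⟨P, Q, hP, hQ, hQ0, h⟩ ⟨P', Q', hP', hQ', hQ0', h'⟩
    refine ⟨P * Q' + P' * Q, Q * Q', ?_, ?_, ?_, ?_⟩
    · rw [map_add, map_mul, map_mul]; exact add_mem (mul_mem hP hQ') (mul_mem hP' hQ)
    · rw [map_mul]; exact mul_mem hQ hQ'
    · rw [map_mul]; exact mul_ne_zero hQ0 hQ0'
    · rw [map_add, map_mul, map_mul, map_mul, ← h, ← h']
      show ((f : LaurentSeries Kbar) + (g : LaurentSeries Kbar)) * _ = _
      ring
  zero_mem' := ⟨0, 1, by rw [map_zero]; exact zero_mem _, by rw [map_one]; exact one_mem _,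
    by rw [map_one]; exact one_ne_zero, by
      show (0 : LaurentSeries Kbar) * _ = _
      rw [zero_mul, map_zero]⟩
  neg_mem' := by
    rintro f ⟨P, Q, hP, hQ, hQ0, h⟩
    refine ⟨-P, Q, by rw [map_neg]; exact neg_mem hP, hQ, hQ0, ?_⟩
    rw [map_neg, ← h]
    show (-(f : LaurentSeries Kbar)) * _ = _
    ring

/-- The Gauss valuation ring of `FB F₀`. -/
def gaussV (hG : IntGen F₀) {ℓ : ℕ} (hℓ : ℓ.Prime) (hA : A.LiesOverPrime ℓ) :
    ValuationSubring (FB F₀) :=
  { gaussSub F₀ A with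
    mem_or_inv_mem' := by
      intro u
      by_cases hu : u = 0
      · left; rw [hu]; exact (gaussSub F₀ A).zero_mem
      obtain ⟨c, x, y, hx, hy, hc, hx0, hy0, h⟩ := exists_scaling hG A ℓ hℓ hA u hu
      have hix : incl A x ≠ 0 := incl_ne_zero_of_red A hx0
      have hiy : incl A y ≠ 0 := incl_ne_zero_of_red A hy0
      have hu' : (u : LaurentSeries Kbar) = HahnSeries.C c * (incl A x / incl A y) := by
        rw [h]
        show algebraMap Kbar (LaurentSeries Kbar) c * (incl A x / incl A y) = _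
        rw [GAL.E.scaling_algebraMap]
      have hCc : (HahnSeries.C c : LaurentSeries Kbar) ≠ 0 := C_ne_zero' hc
      rcases A.mem_or_inv_mem c with hcA | hcA
      · left
        refine ⟨HahnSeries.C (⟨c, hcA⟩ : A) * x, y, ?_, hy, hy0, ?_⟩
        · rw [map_mul, coeffMap_C']
          exact mul_mem (C_mem_FB F₀ _) hx
        · rw [hu', map_mul, coeffMap_C']
          show _ = HahnSeries.C c * incl A x
          field_simp
      · right
        refine ⟨HahnSeries.C (⟨c⁻¹, hcA⟩ : A) * y, x, ?_, hx, hx0, ?_⟩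
        · rw [map_mul, coeffMap_C']
          exact mul_mem (C_mem_FB F₀ _) hy
        · show (u : LaurentSeries Kbar)⁻¹ * _ = _
          rw [hu', map_mul, coeffMap_C']
          show _ = HahnSeries.C c⁻¹ * incl A y
          rw [map_inv₀]
          field_simp }

variable (hG : IntGen F₀) {ℓ : ℕ} (hℓ : ℓ.Prime) (hA : A.LiesOverPrime ℓ)

theorem mem_gaussV_iff (u : FB F₀) : u ∈ gaussV hG hℓ hA ↔ IsGInt F₀ A u := Iff.rfl

/-- an element `R / Q` with `red R = 0`, `red Q ≠ 0` has valuation `< 1` -/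
theorem valuation_lt_one_of_red (u : FB F₀) (R Q : LaurentSeries A)
    (hR : incl A R ∈ laurentBaseChange Kbar F₀) (hQ : incl A Q ∈ laurentBaseChange Kbar F₀)
    (hR0 : red A R = 0) (hQ0 : red A Q ≠ 0)
    (h : (u : LaurentSeries Kbar) * incl A Q = incl A R) :
    (gaussV hG hℓ hA).valuation u < 1 := by
  have hmem : u ∈ gaussV hG hℓ hA := ⟨R, Q, hR, hQ, hQ0, h⟩
  rcases lt_or_eq_of_le ((ValuationSubring.valuation_le_one_iff _ u).2 hmem) with h1 | h1
  · exact h1
  exfalso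
  have hu0 : u ≠ 0 := by
    rintro rfl
    rw [map_zero] at h1
    exact zero_ne_one h1
  have hinv : u⁻¹ ∈ gaussV hG hℓ hA := by
    rw [← ValuationSubring.valuation_le_one_iff, map_inv₀, h1, inv_one]
  obtain ⟨P', Q', -, -, hQ0', h'⟩ := hinv
  have hu0' : (u : LaurentSeries Kbar) ≠ 0 := fun h0 => hu0 (Subtype.ext h0)
  have h'' : (u : LaurentSeries Kbar)⁻¹ * incl A Q' = incl A P' := h'
  have e : incl A (Q * Q') = incl A (R * P') := by
    rw [map_mul, map_mul, ← h, ← h'']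
    field_simp
  have e2 := congrArg (red A) (GAL.E.incl_injective A e)
  rw [map_mul, map_mul, hR0, zero_mul] at e2
  exact mul_ne_zero hQ0 hQ0' e2

/-- conversely -/
theorem exists_of_valuation_lt_one (u : FB F₀) (h : (gaussV hG hℓ hA).valuation u < 1) :
    ∃ R Q : LaurentSeries A, incl A R ∈ laurentBaseChange Kbar F₀ ∧
      incl A Q ∈ laurentBaseChange Kbar F₀ ∧ red A R = 0 ∧ red A Q ≠ 0 ∧
      (u : LaurentSeries Kbar) * incl A Q = incl A R := by
  have hmem : u ∈ gaussV hG hℓ hA := (ValuationSubring.valuation_le_one_iff _ u).1 h.le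
  obtain ⟨R, Q, hR, hQ, hQ0, e⟩ := hmem
  refine ⟨R, Q, hR, hQ, ?_, hQ0, e⟩
  by_contra hR0
  have hiR : incl A R ≠ 0 := incl_ne_zero_of_red A hR0
  have hiQ : incl A Q ≠ 0 := incl_ne_zero_of_red A hQ0
  have hu0' : (u : LaurentSeries Kbar) ≠ 0 := by
    intro h0
    rw [h0, zero_mul] at e
    exact hiR e.symm
  have hinv : u⁻¹ ∈ gaussV hG hℓ hA := by
    refine ⟨Q, R, hQ, hR, hR0, ?_⟩
    show (u : LaurentSeries Kbar)⁻¹ * _ = _
    rw [← e]
    field_simp
  have h2 := (ValuationSubring.valuation_le_one_iff _ u⁻¹).2 hinv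
  rw [map_inv₀] at h2
  have hv0 : (gaussV hG hℓ hA).valuation u ≠ 0 := by
    rw [Ne, map_eq_zero]
    exact fun h0 => hu0' (by rw [h0]; rfl)
  have h3 : 1 ≤ (gaussV hG hℓ hA).valuation u := (inv_le_one₀ (zero_lt_iff.2 hv0)).1 h2
  exact absurd h (not_lt.2 h3)

/-- **Bridge 1.** -/
theorem cong1_iff (u : FB F₀) : Cong1 F₀ A u ↔ T2.IsOneAt (gaussV hG hℓ hA) u := by
  constructor
  · rintro ⟨P, Q, hP, hQ, hPQ, hQ0, rfl⟩
    refine valuation_lt_one_of_red hG hℓ hA _ (P - Q) Q (by rw [map_sub]; exact sub_mem hP hQ) hQ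
      (by rw [map_sub, hPQ, sub_self]) hQ0 ?_
    have hiQ : incl A Q ≠ 0 := incl_ne_zero_of_red A hQ0
    show (incl A P / incl A Q - 1) * incl A Q = _
    rw [map_sub]
    field_simp
  · intro h
    obtain ⟨R, Q, hR, hQ, hR0, hQ0, e⟩ := exists_of_valuation_lt_one hG hℓ hA _ h
    have hiQ : incl A Q ≠ 0 := incl_ne_zero_of_red A hQ0
    refine ⟨R + Q, Q, by rw [map_add]; exact add_mem hR hQ, hQ,
      by rw [map_add, hR0, zero_add], hQ0, ?_⟩
    apply Subtype.ext
    show (u : LaurentSeries Kbar) = incl A (R + Q) / incl A Q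
    have e' : ((u : LaurentSeries Kbar) - 1) * incl A Q = incl A R := e
    rw [map_add, ← e']
    field_simp
    ring

/-- **Bridge 2.** -/
theorem congC_iff (u : FB F₀) : CongC F₀ A u ↔ T2.IsC Kbar (gaussV hG hℓ hA) u := by
  constructor
  · rintro ⟨c, hc, h⟩
    refine ⟨c⁻¹, inv_ne_zero hc, ?_⟩
    rw [map_inv₀, inv_inv, mul_comm]
    exact (cong1_iff hG hℓ hA _).1 h
  · rintro ⟨c, hc, h⟩
    refine ⟨c⁻¹, inv_ne_zero hc, ?_⟩
    rw [map_inv₀, mul_comm]
    exact (cong1_iff hG hℓ hA _).2 h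

/-- `gaussV ∩ ℚ̄ = A`. -/
theorem algebraMap_mem_gaussV_iff (c : Kbar) :
    algebraMap Kbar (FB F₀) c ∈ gaussV hG hℓ hA ↔ c ∈ A := by
  constructor
  · rintro ⟨P, Q, -, -, hQ0, e⟩
    have e' : HahnSeries.C c * incl A Q = incl A P := by
      rw [← e, HeckeOp1.coe_algebraMap]
    by_contra hc
    have hc' : c⁻¹ ∈ A := (A.mem_or_inv_mem c).resolve_left hc
    have hc0 : c ≠ 0 := by
      rintro rfl
      exact hc (zero_mem _)
    have e2 : Q = HahnSeries.C (⟨c⁻¹, hc'⟩ : A) * P := by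
      apply GAL.E.incl_injective A
      rw [map_mul, coeffMap_C', ← e']
      show _ = HahnSeries.C c⁻¹ * _
      rw [← mul_assoc, ← map_mul, inv_mul_cancel₀ hc0, map_one, one_mul]
    have hres : IsLocalRing.residue A (⟨c⁻¹, hc'⟩ : A) ≠ 0 := by
      intro h0
      apply hQ0
      rw [e2, map_mul, coeffMap_C', h0, map_zero, zero_mul]
    have hu : IsUnit (⟨c⁻¹, hc'⟩ : A) := by
      rw [← IsLocalRing.notMem_maximalIdeal]
      intro hm
      exact hres ((IsLocalRing.residue_eq_zero_iff _).2 hm)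
    obtain ⟨d, hd⟩ := hu.exists_right_inv
    have hd' : c⁻¹ * (d : Kbar) = 1 := congrArg (fun z : A => (z : Kbar)) hd
    have : (d : Kbar) = c := by
      rw [← mul_one c, ← hd', ← mul_assoc, mul_inv_cancel₀ hc0, one_mul]
    exact hc (this ▸ d.2)
  · intro hc
    refine ⟨HahnSeries.C (⟨c, hc⟩ : A), 1, ?_, by rw [map_one]; exact one_mem _,
      by rw [map_one]; exact one_ne_zero, ?_⟩
    · rw [coeffMap_C']
      exact C_mem_FB F₀ _
    · rw [map_one, mul_one, HeckeOp1.coe_algebraMap, coeffMap_C']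
      rfl

/-- the Gauss valuation ring lies over `ℓ` -/
theorem gaussV_liesOverPrime : (gaussV hG hℓ hA).LiesOverPrime ℓ := by
  rw [ValuationSubring.LiesOverPrime, ValuationSubring.mem_nonunits_iff]
  have hmem := GAL.KLInputs.natCast_mem_maximalIdeal A hA
  refine valuation_lt_one_of_red hG hℓ hA _ (HahnSeries.C ((ℓ : ℕ) : A)) 1 ?_
    (by rw [map_one]; exact one_mem _) ?_ (by rw [map_one]; exact one_ne_zero) ?_
  · rw [coeffMap_C']
    exact C_mem_FB F₀ _
  · rw [coeffMap_C', (IsLocalRing.residue_eq_zero_iff _).2 hmem, map_zero]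
  · rw [map_one, mul_one, coeffMap_C']
    have e : ((ℓ : FB F₀)) = algebraMap Kbar (FB F₀) (ℓ : Kbar) := (map_natCast _ ℓ).symm
    rw [e, HeckeOp1.coe_algebraMap]
    congr 1

/-- `v(m) = 1` if `ℓ ∤ m`. -/
theorem valuation_natCast_eq_one (m : ℕ) (hm : ¬ ℓ ∣ m) :
    (gaussV hG hℓ hA).valuation (m : FB F₀) = 1 := by
  have h := GAL.KLInputs.isUnit_natCast (gaussV hG hℓ hA) hℓ (gaussV_liesOverPrime hG hℓ hA) m hm
  have h2 := (ValuationSubring.valuation_eq_one_iff (gaussV hG hℓ hA) _).1 h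
  simpa using h2

end Fermat.Agent.S43.Triv

end
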