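/-
Row 37 (S43), block TRIV (chief helper77; generic layer `Triv/{Defs,Kinf,RedC,KD,K0,Pi}.lean` by helper194).
THE INSTANCES at the level `F1 = F1Q q M` (group `±Γ₁(q) ∩ Γ₀(q M)`) over `F0 = modularFunctionFieldFull (q * M)`.
Every side hypothesis of the generic layer which does not involve `w` is discharged here from block OPS:
* `diaD q M : Dia F1 (ZMod q)ˣ`              (`Ops.dia`, `Ops.galF_dia`);
* `U_dia`   : ANY `X : UOp F1 q` commutes with the diamonds        (hypothesis `hX`);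
* `T_dia`   : `heckeOpT` commutes with the diamonds                (hypothesis `hH`);
* `unitL`, `heckeOpT_D_eq_dia` : the diamond of `heckeOpT` is `⟨l⟩` (hypothesis `hdl`);
* `pairD q M : Pair F0 F1`, `dia_fix` (hypothesis `hfix`), `exists_norm_eq_prod` (hypothesis `hs`).
-/
import Fermat.Agent.S43.Triv.Pi
import Fermat.Agent.S43.Ops.Dia
import Fermat.Agent.S43.Ops.T.Final
import Fermat.Agent.S43.Ops.U.Mat
import Fermat.Agent.S43.Ops.Rel.Main
import Fermat.Agent.S43.Ops.New.Norm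
import Fermat.Agent.S48.BB.E.IntGenF1Q

set_option autoImplicit false

noncomputable section

namespace Fermat.Agent.S43.Triv

open ModularCurve AlgebraicCurve CongruenceSubgroup Fermat.Agent.S24 Fermat.Agent.S24.B
  Fermat.Agent.S48.BB Fermat.Agent.S48.BB.M Fermat.Agent.S48.BB.E Fermat.Agent.S48.BB.T
  Fermat.Agent.S48.BB.H Fermat.Agent.S43.Ops.Pi Fermat.Agent.S37.HeckeInputs
open Fermat.Agent.GAL.E (GQ incl red)
open scoped MatrixGroups

variable (q M : ℕ) [NeZero q] [NeZero M]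

/-- the diamond datum of `F1Q q M` -/
def diaD : Dia (F1Q q M) (ZMod q)ˣ where
  dia := Ops.dia q M
  galF_dia σ d u := Ops.galF_dia d σ u

theorem diaD_dia (d : (ZMod q)ˣ) : (diaD q M).dia d = Ops.dia q M d := rfl

instance instNeZeroMulInst : NeZero (q * M) := ⟨mul_ne_zero (NeZero.ne q) (NeZero.ne M)⟩

theorem intGen1 : IntGen (F1Q q M) := intGen_F1Q q M

theorem intGen0 : IntGen (modularFunctionFieldFull (q * M)) :=
  intGen_modularFunctionFieldFull (q * M)

variable {q M}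

/-- `hX` : every `U_q` commutes with the diamond operators. -/
theorem U_dia (X : Ops.U.UOp (F1Q q M) q) (d : (ZMod q)ˣ) (u : FB (F1Q q M)) :
    X.U ((diaD q M).dia d u) = (diaD q M).dia d (X.U u) := by
  have hA : Ops.Rel.IsRep (Ops.hL1 q M) X.U (Ops.Rel.aU q) :=
    Ops.New.isRep_U (Ops.hL1 q M) (Ops.U.Mat_T_mem_H1 q M) X
  exact (Ops.Rel.dia_U_comm (le_refl _) (Ops.sg_mem q M d) hA
    (D := fun u => Ops.dia q M d u)
    (fun u => Ops.real_dia_of d (Ops.sg_mem q M d) (Ops.dd_sg q M d) u) u).symm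

variable {l : ℕ} [NeZero l]

/-- `hH` : `T_l` commutes with the diamond operators. -/
theorem T_dia (hl : l.Prime) (hlN : ¬ l ∣ q * M) (d : (ZMod q)ˣ) (u : FB (F1Q q M)) :
    (Ops.heckeOpT q M hl hlN).T ((diaD q M).dia d u) =
      (diaD q M).dia d ((Ops.heckeOpT q M hl hlN).T u) := by
  have hA : Ops.Rel.IsRep (Ops.hL1 q M) (Ops.heckeOpT q M hl hlN).T
      (Ops.Rel.aT l (sig (q * M) (l : ZMod (q * M)))) :=
    fun u => Ops.real_heckeOpT q M hl hlN u
  exact (Ops.Rel.dia_T_comm (le_refl _) hl hlN (sig_mem (q * M) _)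
    (Ops.dd_left_eq_natCast (dd_sig (isUnit_natCast_of_prime (q * M) hl hlN)))
    (Ops.sg_mem q M d) hA (D := fun u => Ops.dia q M d u)
    (fun u => Ops.real_dia_of d (Ops.sg_mem q M d) (Ops.dd_sg q M d) u) u).symm

/-- the class of `l` in `(ℤ/q)ˣ` -/
def unitL (hl : l.Prime) (hlN : ¬ l ∣ q * M) : (ZMod q)ˣ :=
  (isUnit_natCast_of_prime q hl (fun h => hlN (h.mul_right M))).unit

theorem coe_unitL (hl : l.Prime) (hlN : ¬ l ∣ q * M) :
    ((unitL hl hlN : (ZMod q)ˣ) : ZMod q) = (l : ZMod q) := rfl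

/-- `hdl` : the diamond operator of `T_l` is `⟨l⟩`. -/
theorem heckeOpT_D_eq_dia (hl : l.Prime) (hlN : ¬ l ∣ q * M) :
    (Ops.heckeOpT q M hl hlN).D = (diaD q M).dia (unitL hl hlN) :=
  Ops.heckeOpT_D_eq q M hl hlN _ (Ops.sg_mem q M (unitL hl hlN))
    (by rw [Ops.dd_sg, coe_unitL])
    (fun u => Ops.Psi_dia_of _ (Ops.sg_mem q M _) (Ops.dd_sg q M _) u)

variable (q M)

/-- the pair `F0 ≤ F1` -/
theorem pairD : Pair (modularFunctionFieldFull (q * M)) (F1Q q M) :=
  pair_of_isLvl (Ops.hL0 q M) (Ops.hL1 q M) (Ops.F0_le_F1 q M)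

variable {q M}

/-- `hfix` -/
theorem dia_fix (d : (ZMod q)ˣ) (u : FB (modularFunctionFieldFull (q * M))) :
    (diaD q M).dia d (alphaB (pairD q M).le u) = alphaB (pairD q M).le u :=
  Ops.dia_alphaB d u

variable (q M)

/-- `hs` : the norm is a product of diamond conjugates. -/
theorem exists_norm_eq_prod : ∃ s : Finset (ZMod q)ˣ, ∀ y : FB (F1Q q M),
    alphaB (pairD q M).le (normAlong (alphaB (pairD q M).le) y) =
      ∏ d ∈ s, (diaD q M).dia d y := by
  classical
  let G : Subgroup (FB (F1Q q M) ≃ₐ[Kbar] FB (F1Q q M)) := (Ops.dia q M).range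
  have : Finite G := Set.finite_range _
  have : Fintype G := Fintype.ofFinite G
  let f : G → (ZMod q)ˣ := fun g => g.2.choose
  have hf : ∀ g : G, Ops.dia q M (f g) = g := fun g => g.2.choose_spec
  have hinj : Function.Injective f := fun g g' h => Subtype.ext (by rw [← hf g, ← hf g', h])
  refine ⟨Finset.univ.image f, fun y => ?_⟩
  rw [map_normAlong_eq_prod (alphaB (pairD q M).le) G
    (by rintro _ ⟨d, rfl⟩ u; exact Ops.dia_alphaB d u)
    (fun y hy => Ops.exists_alphaB_eq_of_dia y fun d => hy _ ⟨d, rfl⟩) y,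
    Finset.prod_image (fun g _ g' _ h => hinj h)]
  exact Finset.prod_congr rfl fun g _ => by rw [diaD_dia, hf]

end Fermat.Agent.S43.Triv

end
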