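/-
Row 37 (S43), block TRIV (chief helper77; generic layer by helper194).  **THE CONTRACT, AT THE CONCRETE LEVELS.**

`F1 = F1Q q M` (group `±Γ₁(q) ∩ Γ₀(q M)`), `F0 = modularFunctionFieldFull (q * M)`, `W = W1 F1 n`, `W0 = W1 F0 n`, ANY `n`.
INPUT FROM OPS (nothing else):
* `X  : Ops.U.UOp F1 q`     ANY operator with the `q`-expansion of `U_q`;
* `Wd : WDat q M`           the Atkin-Lehner automorphism `w` of `FB F1` with `w ⟨d⟩ = ⟨d⟩⁻¹ w`, `σ w = w ⟨e σ⟩ σ`;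
* `W0d : W0Dat Wd`          its restriction `w0` to `FB F0` (defined over `ℚ`).
OUTPUT (`A ∣ q`, `σ ∈ I_A`, `φ` a Frobenius at `A`):
  `Ki q M A n := K_∞`  (ONE representative `u`, `⟨d⟩ u ∈ ℚ̄ˣ (1 + m_v)` for ALL `d ∈ (ℤ/q)ˣ`),   `Kz Wd A n := w⁻¹ K_∞`,
  `Ki0 q M A n`, `Kz0 W0d A n` : the same at level `F0` (no diamonds).
  t1 `rho σ x - x ∈ Ki`            t2 `rho φ x - U x ∈ Ki`
  t3 `rho σ x - ⟨e σ⟩⁻¹ x ∈ Kz`    t4 `rho φ x - w⁻¹ U w x ∈ Kz`  (`e φ = 1`)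
  `Ki`, `Kz` stable under `⟨d⟩`, `rho σ`, `rho φ`;  `Ki` under `U`, `T_l`;  `Kz` under `w⁻¹ U w`;
  `π^* Ki0 ≤ Ki`, `π^* Kz0 ≤ Kz`, `π_* Ki ≤ Ki0`, `π_* Kz ≤ Kz0`;   level 0: `(σ - 1) W0 ≤ Ki0 ⊓ Kz0`.
-/
import Fermat.Agent.S43.Triv.Inst

set_option autoImplicit false

noncomputable section

namespace Fermat.Agent.S43.Triv

open ModularCurve AlgebraicCurve CongruenceSubgroup Fermat.Agent.S24 Fermat.Agent.S24.B
  Fermat.Agent.S48.BB Fermat.Agent.S48.BB.M Fermat.Agent.S48.BB.E Fermat.Agent.S48.BB.T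
  Fermat.Agent.S43.Ops.Pi
open Fermat.Agent.GAL.E (GQ incl red)

/-- What OPS-W delivers at the level `F1Q q M`. -/
structure WDat (q M : ℕ) [NeZero q] [NeZero M] where
  /-- the Atkin-Lehner automorphism -/
  w : FB (F1Q q M) ≃ₐ[Kbar] FB (F1Q q M)
  /-- the twist (`ε_q^{±1}`) -/
  e : GQ → (ZMod q)ˣ
  w_dia : ∀ (d : (ZMod q)ˣ) (u : FB (F1Q q M)), w (Ops.dia q M d u) = Ops.dia q M d⁻¹ (w u)
  galF_w : ∀ (σ : GQ) (u : FB (F1Q q M)),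
    galF (F1Q q M) σ (w u) = w (Ops.dia q M (e σ) (galF (F1Q q M) σ u))

variable {q M : ℕ} [NeZero q] [NeZero M]

/-- the generic datum -/
def WDat.toWTw (Wd : WDat q M) : WTw (F1Q q M) (ZMod q)ˣ where
  toDia := diaD q M
  w := Wd.w
  e := Wd.e
  w_dia := Wd.w_dia
  galF_w := Wd.galF_w

/-- The restriction of `w` to the level `Γ₀(q M)`. -/
structure W0Dat (Wd : WDat q M) where
  /-- the Atkin-Lehner automorphism of `FB F0` -/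
  w0 : FB (modularFunctionFieldFull (q * M)) ≃ₐ[Kbar] FB (modularFunctionFieldFull (q * M))
  galF_w0 : ∀ (σ : GQ) (u : FB (modularFunctionFieldFull (q * M))),
    galF _ σ (w0 u) = w0 (galF _ σ u)
  compat : ∀ u : FB (modularFunctionFieldFull (q * M)),
    Wd.w (alphaB (pairD q M).le u) = alphaB (pairD q M).le (w0 u)

/-- the generic datum at level `Γ₀(q M)` (trivial diamond group) -/
def W0Dat.toWTw {Wd : WDat q M} (W0d : W0Dat Wd) :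
    WTw (modularFunctionFieldFull (q * M)) Unit where
  dia := 1
  galF_dia _ _ _ := rfl
  w := W0d.w0
  e _ := 1
  w_dia _ _ := rfl
  galF_w σ u := W0d.galF_w0 σ u

variable (q M) in
/-- `K_∞` at level `F1`. -/
def Ki (A : ValuationSubring Kbar) (n : ℕ) : AddSubgroup (W1 (F1Q q M) n) := KD (diaD q M) A n

/-- `K_0 = w⁻¹ K_∞` at level `F1`. -/
def Kz (Wd : WDat q M) (A : ValuationSubring Kbar) (n : ℕ) : AddSubgroup (W1 (F1Q q M) n) :=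
  K0D Wd.toWTw A n

variable (q M) in
/-- `K_∞` at level `F0`. -/
def Ki0 (A : ValuationSubring Kbar) (n : ℕ) :
    AddSubgroup (W1 (modularFunctionFieldFull (q * M)) n) :=
  Kinf (modularFunctionFieldFull (q * M)) A n

/-- `K_0 = w⁻¹ K_∞` at level `F0`. -/
def Kz0 {Wd : WDat q M} (W0d : W0Dat Wd) (A : ValuationSubring Kbar) (n : ℕ) :
    AddSubgroup (W1 (modularFunctionFieldFull (q * M)) n) :=
  (Ki0 q M A n).comap (W0d.toWTw.wW n : W1 (modularFunctionFieldFull (q * M)) n →+ _)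

variable (q M) in
/-- the diamond operators on `W` -/
def dW (n : ℕ) (d : (ZMod q)ˣ) : AddMonoid.End (W1 (F1Q q M) n) := (diaD q M).diaW n d

theorem dW_eq (n : ℕ) (d : (ZMod q)ˣ) : dW q M n d = autW (Ops.dia q M d) n := rfl

/-- `U_q^t = w⁻¹ U_q w` on `W` -/
def UtW (Wd : WDat q M) (X : Ops.U.UOp (F1Q q M) q) (n : ℕ) : AddMonoid.End (W1 (F1Q q M) n) :=
  Wd.toWTw.UsW X n

theorem UtW_eq (Wd : WDat q M) (X : Ops.U.UOp (F1Q q M) q) (n : ℕ) :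
    UtW Wd X n = autW Wd.w⁻¹ n * X.UW n * autW Wd.w n := rfl

variable {A : ValuationSubring Kbar} {n : ℕ}

section Inf

variable (hq : q.Prime) (hA : A.LiesOverPrime q)
include hq hA

theorem t1 (σ : GQ) (hσ : σ ∈ A.inertiaSubgroupIn ℚ) (x : W1 (F1Q q M) n) :
    rho (F1Q q M) n σ x - x ∈ Ki q M A n :=
  isKD_rho_sub (intGen1 q M) hq hA σ hσ x

theorem t2 (X : Ops.U.UOp (F1Q q M) q) (φ : GQ) (hφ : A.IsFrobeniusAt φ q) (x : W1 (F1Q q M) n) :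
    rho (F1Q q M) n φ x - X.UW n x ∈ Ki q M A n :=
  isKD_frob_sub (intGen1 q M) hq hA X (U_dia X) φ hφ x

theorem t3 (Wd : WDat q M) (σ : GQ) (hσ : σ ∈ A.inertiaSubgroupIn ℚ) (x : W1 (F1Q q M) n) :
    rho (F1Q q M) n σ x - dW q M n (Wd.e σ)⁻¹ x ∈ Kz Wd A n :=
  isK0D_rho_sub (D := Wd.toWTw) (intGen1 q M) hq hA σ hσ x

theorem t4 (Wd : WDat q M) (X : Ops.U.UOp (F1Q q M) q) (φ : GQ) (hφ : A.IsFrobeniusAt φ q)
    (hφ1 : Wd.e φ = 1) (x : W1 (F1Q q M) n) :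
    rho (F1Q q M) n φ x - UtW Wd X n x ∈ Kz Wd A n :=
  isK0D_frob_sub (D := Wd.toWTw) (intGen1 q M) hq hA X (U_dia X) φ hφ hφ1 x

theorem Ki_S (σ : GQ) (hσ : σ ∈ A.inertiaSubgroupIn ℚ) {x : W1 (F1Q q M) n}
    (hx : x ∈ Ki q M A n) : rho (F1Q q M) n σ x ∈ Ki q M A n :=
  IsKD.rho_inertia (intGen1 q M) hq hA σ hσ hx

theorem Ki_F (φ : GQ) (hφ : A.IsFrobeniusAt φ q) {x : W1 (F1Q q M) n}
    (hx : x ∈ Ki q M A n) : rho (F1Q q M) n φ x ∈ Ki q M A n :=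
  IsKD.rho_frob (intGen1 q M) hq hA φ hφ hx

theorem Ki_U (X : Ops.U.UOp (F1Q q M) q) {x : W1 (F1Q q M) n} (hx : x ∈ Ki q M A n) :
    X.UW n x ∈ Ki q M A n :=
  IsKD.UW (intGen1 q M) hq hA X (U_dia X) hx

theorem Ki_T {l : ℕ} [NeZero l] (hl : l.Prime) (hlN : ¬ l ∣ q * M) {x : W1 (F1Q q M) n}
    (hx : x ∈ Ki q M A n) : (Ops.heckeOpT q M hl hlN).TW n x ∈ Ki q M A n :=
  IsKD.TW (intGen1 q M) hq hA _ (unitL hl hlN) (heckeOpT_D_eq_dia hl hlN) (T_dia hl hlN) hx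

theorem Kz_S (Wd : WDat q M) (σ : GQ) (hσ : σ ∈ A.inertiaSubgroupIn ℚ) {x : W1 (F1Q q M) n}
    (hx : x ∈ Kz Wd A n) : rho (F1Q q M) n σ x ∈ Kz Wd A n :=
  IsK0D.rho_inertia (D := Wd.toWTw) (intGen1 q M) hq hA σ hσ hx

theorem Kz_F (Wd : WDat q M) (φ : GQ) (hφ : A.IsFrobeniusAt φ q) {x : W1 (F1Q q M) n}
    (hx : x ∈ Kz Wd A n) : rho (F1Q q M) n φ x ∈ Kz Wd A n :=
  IsK0D.rho_frob (D := Wd.toWTw) (intGen1 q M) hq hA φ hφ hx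

theorem Kz_Ut (Wd : WDat q M) (X : Ops.U.UOp (F1Q q M) q) {x : W1 (F1Q q M) n}
    (hx : x ∈ Kz Wd A n) : UtW Wd X n x ∈ Kz Wd A n :=
  IsK0D.UsW (D := Wd.toWTw) (intGen1 q M) hq hA X (U_dia X) hx

/-- `π_* K_∞ ≤ K_∞^0` -/
theorem pr_Ki [NeZero n] {x : W1 (F1Q q M) n} (hx : x ∈ Ki q M A n) :
    piDown (pairD q M) n x ∈ Ki0 q M A n := by
  obtain ⟨s, hs⟩ := exists_norm_eq_prod q M
  exact IsKD.piDown (pairD q M) (diaD q M) (intGen0 q M) hq hA s hs hx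

/-- `π_* K_0 ≤ K_0^0` -/
theorem pr_Kz [NeZero n] {Wd : WDat q M} (W0d : W0Dat Wd) {x : W1 (F1Q q M) n}
    (hx : x ∈ Kz Wd A n) : piDown (pairD q M) n x ∈ Kz0 W0d A n := by
  obtain ⟨s, hs⟩ := exists_norm_eq_prod q M
  exact IsK0D.piDown (pairD q M) W0d.toWTw Wd.toWTw (intGen0 q M) hq hA W0d.compat s hs hx

/-- level 0 : `(σ - 1) W0 ≤ K_∞^0` -/
theorem t1_0 [NeZero n] (σ : GQ) (hσ : σ ∈ A.inertiaSubgroupIn ℚ)
    (x : W1 (modularFunctionFieldFull (q * M)) n) :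
    rho (modularFunctionFieldFull (q * M)) n σ x - x ∈ Ki0 q M A n :=
  isKinf_rho_sub (intGen0 q M) hq hA σ hσ x

/-- level 0 : `(σ - 1) W0 ≤ K_0^0` -/
theorem t3_0 [NeZero n] {Wd : WDat q M} (W0d : W0Dat Wd) (σ : GQ)
    (hσ : σ ∈ A.inertiaSubgroupIn ℚ) (x : W1 (modularFunctionFieldFull (q * M)) n) :
    rho (modularFunctionFieldFull (q * M)) n σ x - x ∈ Kz0 W0d A n := by
  have h := isK0_rho_sub (D := W0d.toWTw) (intGen0 q M) hq hA σ hσ x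
  have e : W0d.toWTw.diaW n (W0d.toWTw.e σ)⁻¹ x = x := W0d.toWTw.toDia.diaW_one x
  rw [e] at h
  exact h

/-- level 0 : `(φ - U_q) W0 ≤ K_∞^0` -/
theorem t2_0 [NeZero n] (X0 : Ops.U.UOp (modularFunctionFieldFull (q * M)) q) (φ : GQ)
    (hφ : A.IsFrobeniusAt φ q) (x : W1 (modularFunctionFieldFull (q * M)) n) :
    rho (modularFunctionFieldFull (q * M)) n φ x - X0.UW n x ∈ Ki0 q M A n :=
  isKinf_frob_sub (intGen0 q M) hq hA X0 φ hφ x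

end Inf

theorem Ki_dl (d : (ZMod q)ˣ) {x : W1 (F1Q q M) n} (hx : x ∈ Ki q M A n) :
    dW q M n d x ∈ Ki q M A n := IsKD.diaW hx d

theorem Kz_dl (Wd : WDat q M) (d : (ZMod q)ˣ) {x : W1 (F1Q q M) n} (hx : x ∈ Kz Wd A n) :
    dW q M n d x ∈ Kz Wd A n := IsK0D.diaW (D := Wd.toWTw) hx d

/-- `π^* K_∞^0 ≤ K_∞` -/
theorem inc_Ki {x : W1 (modularFunctionFieldFull (q * M)) n} (hx : x ∈ Ki0 q M A n) :
    piUp (pairD q M) n x ∈ Ki q M A n :=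
  IsKinf.piUp (pairD q M) (diaD q M) dia_fix hx

/-- `π^* K_0^0 ≤ K_0` -/
theorem inc_Kz {Wd : WDat q M} (W0d : W0Dat Wd) {x : W1 (modularFunctionFieldFull (q * M)) n}
    (hx : x ∈ Kz0 W0d A n) : piUp (pairD q M) n x ∈ Kz Wd A n :=
  IsK0.piUp (pairD q M) W0d.toWTw Wd.toWTw W0d.compat dia_fix hx

end Fermat.Agent.S43.Triv

end
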