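/-
Row 37 (S43), block TRIV (chief helper77).  **THE TRIV FIELDS OF `Glue.Raw`, IN LITERAL SHAPE**, on
`V = W1 (F1Q q M) n`, `V₀ = W1 (modularFunctionFieldFull (q * M)) n` (ANY `n`), `q` prime, `(q, M) = 1`, `A ∣ q`.
  `K  := Ki q M A n`,   `K' := Kz (Ops.wDat hq hc) A n`,   `Y₀ := Ki0 q M A n`,
  `g  := autW (Ops.dia q M d) n`  (`d = Ops.eps q σ` in `SK'`),   `S := rho _ n σ`, `F := rho _ n φ`,
  `U  := (Ops.U.uOp1 q M).UW n` (or ANY `X : UOp`),   `Ut := UtW (Ops.wDat hq hc) X n = autW w⁻¹ n * X.UW n * autW w n`,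
  `dn := piDown (pairD q M) n`,   `up := piUp (pairD q M) n`.
* `raw_K_g raw_K'_g raw_SK raw_SK' raw_FK raw_FK' raw_dnK` : the fields;
* `raw_dnK'` , `raw_upK'` : the `K'` halves, up to `Kz0 (Ops.w0Dat hq hc) A n = w0⁻¹ Y₀`;
* level `Γ₀` : `Y₀` is stable under `U_q`, `T_l`, inertia, Frobenius (`IsKinf.UW`, `IsKinf.TW`, ...);
  `Kz0_le` : `y ∈ w0⁻¹ Y₀` and `w0 = - U_q` at `w0 y`  ⟹  `y ∈ Y₀`;   `raw_L0 : F₀ y - U₀ y ∈ Y₀`.
-/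
import Fermat.Agent.S43.Triv.Contract
import Fermat.Agent.S43.Ops.W.Inst

set_option autoImplicit false

noncomputable section

namespace Fermat.Agent.S43.Triv

open ModularCurve AlgebraicCurve CongruenceSubgroup Fermat.Agent.S24 Fermat.Agent.S24.B
  Fermat.Agent.S48.BB Fermat.Agent.S48.BB.M Fermat.Agent.S48.BB.E Fermat.Agent.S48.BB.T
  Fermat.Agent.S43.Ops.Pi
open Fermat.Agent.GAL.E (GQ incl red)

/-! ### The plain `K_∞` (no diamonds): stabilities, generic in `F₀` -/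

section Plain

variable {F₀ : IntermediateField ℚ (LaurentSeries ℚ)} {A : ValuationSubring Kbar} {n : ℕ}

variable (F₀) in
/-- the trivial diamond datum -/
def dia0 : Dia F₀ Unit where
  dia := 1
  galF_dia _ _ _ := rfl

theorem IsKinf.isKD0 {x : W1 F₀ n} (hx : IsKinf A x) : IsKD (dia0 F₀) A x := by
  obtain ⟨u, rfl, hu⟩ := hx
  exact ⟨u, rfl, fun _ => hu.congC⟩

theorem isKD0_iff [NeZero n] {x : W1 F₀ n} : IsKD (dia0 F₀) A x ↔ IsKinf A x :=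
  ⟨IsKD.isKinf, IsKinf.isKD0⟩

variable [NeZero n] (hG : IntGen F₀) {ℓ : ℕ} (hℓ : ℓ.Prime) (hA : A.LiesOverPrime ℓ)
include hG hℓ hA

theorem IsKinf.rho_inertia (σ : GQ) (hσ : σ ∈ A.inertiaSubgroupIn ℚ) {x : W1 F₀ n}
    (hx : IsKinf A x) : IsKinf A (rho F₀ n σ x) :=
  (IsKD.rho_inertia hG hℓ hA σ hσ hx.isKD0).isKinf

theorem IsKinf.rho_frob (φ : GQ) (hφ : A.IsFrobeniusAt φ ℓ) {x : W1 F₀ n}
    (hx : IsKinf A x) : IsKinf A (rho F₀ n φ x) :=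
  (IsKD.rho_frob hG hℓ hA φ hφ hx.isKD0).isKinf

theorem IsKinf.UW {q : ℕ} [NeZero q] (X : Ops.U.UOp F₀ q) {x : W1 F₀ n} (hx : IsKinf A x) :
    IsKinf A (X.UW n x) :=
  (IsKD.UW hG hℓ hA X (fun _ _ => rfl) hx.isKD0).isKinf

theorem IsKinf.TW {l : ℕ} [NeZero l] (H : HeckeOp1 F₀ l) (hD : H.D = 1) {x : W1 F₀ n}
    (hx : IsKinf A x) : IsKinf A (H.TW n x) :=
  (IsKD.TW hG hℓ hA H (D := dia0 F₀) () hD (fun _ _ => rfl) hx.isKD0).isKinf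

end Plain

/-! ### The fields -/

variable {q M : ℕ} [NeZero q] [NeZero M] {A : ValuationSubring Kbar} {n : ℕ}

theorem raw_K_g (d : (ZMod q)ˣ) : ∀ x ∈ Ki q M A n, autW (Ops.dia q M d) n x ∈ Ki q M A n :=
  fun _ hx => Ki_dl d hx

section

variable (hq : q.Prime) (hc : Nat.Coprime q M)

theorem raw_K'_g (d : (ZMod q)ˣ) :
    ∀ x ∈ Kz (Ops.wDat hq hc) A n, autW (Ops.dia q M d) n x ∈ Kz (Ops.wDat hq hc) A n :=
  fun _ hx => Kz_dl _ d hx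

variable (hA : A.LiesOverPrime q)
include hA

theorem raw_SK (hq : q.Prime) (σ : GQ) (hσ : σ ∈ A.inertiaSubgroupIn ℚ) :
    ∀ x, rho (F1Q q M) n σ x - x ∈ Ki q M A n :=
  t1 hq hA σ hσ

theorem raw_SK' (σ : GQ) (hσ : σ ∈ A.inertiaSubgroupIn ℚ) :
    ∀ x, rho (F1Q q M) n σ x - autW (Ops.dia q M (Ops.eps q σ)) n x ∈
      Kz (Ops.wDat hq hc) A n := by
  intro x
  have h := t3 hq hA (Ops.wDat hq hc) σ hσ x
  rwa [Ops.wDat_e, inv_inv] at h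

theorem raw_FK (hq : q.Prime) (X : Ops.U.UOp (F1Q q M) q) (φ : GQ) (hφ : A.IsFrobeniusAt φ q) :
    ∀ x, rho (F1Q q M) n φ x - X.UW n x ∈ Ki q M A n :=
  t2 hq hA X φ hφ

theorem raw_FK' (X : Ops.U.UOp (F1Q q M) q) (φ : GQ) (hφ : A.IsFrobeniusAt φ q)
    (hφ1 : φ ((zetaK q : Kbarˣ) : Kbar) = ((zetaK q : Kbarˣ) : Kbar)) :
    ∀ x, rho (F1Q q M) n φ x - UtW (Ops.wDat hq hc) X n x ∈ Kz (Ops.wDat hq hc) A n :=
  t4 hq hA (Ops.wDat hq hc) X φ hφ (by rw [Ops.wDat_e, Ops.eps_eq_one hφ1, inv_one])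

theorem raw_dnK [NeZero n] (hq : q.Prime) :
    ∀ x ∈ Ki q M A n, piDown (pairD q M) n x ∈ Ki0 q M A n :=
  fun _ hx => pr_Ki hq hA hx

theorem raw_dnK' [NeZero n] :
    ∀ x ∈ Kz (Ops.wDat hq hc) A n, piDown (pairD q M) n x ∈ Kz0 (Ops.w0Dat hq hc) A n :=
  fun _ hx => pr_Kz hq hA (Ops.w0Dat hq hc) hx

/-- level `Γ₀` : `φ = U_q` modulo `Y₀` -/
theorem raw_L0 [NeZero n] (hq : q.Prime) (X0 : Ops.U.UOp (modularFunctionFieldFull (q * M)) q)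
    (φ : GQ) (hφ : A.IsFrobeniusAt φ q) :
    ∀ y, rho (modularFunctionFieldFull (q * M)) n φ y - X0.UW n y ∈ Ki0 q M A n :=
  t2_0 hq hA X0 φ hφ

/-- level `Γ₀` : `(σ - 1) V₀ ≤ Y₀` -/
theorem raw_SY₀ [NeZero n] (hq : q.Prime) (σ : GQ) (hσ : σ ∈ A.inertiaSubgroupIn ℚ) :
    ∀ y, rho (modularFunctionFieldFull (q * M)) n σ y - y ∈ Ki0 q M A n :=
  t1_0 hq hA σ hσ

theorem Ki0_U [NeZero n] (hq : q.Prime) (X0 : Ops.U.UOp (modularFunctionFieldFull (q * M)) q) :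
    ∀ y ∈ Ki0 q M A n, X0.UW n y ∈ Ki0 q M A n :=
  fun _ hy => IsKinf.UW (intGen0 q M) hq hA X0 hy

theorem Ki0_T [NeZero n] (hq : q.Prime) {l : ℕ} [NeZero l]
    (H : HeckeOp1 (modularFunctionFieldFull (q * M)) l) (hD : H.D = 1) :
    ∀ y ∈ Ki0 q M A n, H.TW n y ∈ Ki0 q M A n :=
  fun _ hy => IsKinf.TW (intGen0 q M) hq hA H hD hy

theorem Ki0_S [NeZero n] (hq : q.Prime) (σ : GQ) (hσ : σ ∈ A.inertiaSubgroupIn ℚ) :
    ∀ y ∈ Ki0 q M A n, rho (modularFunctionFieldFull (q * M)) n σ y ∈ Ki0 q M A n :=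
  fun _ hy => IsKinf.rho_inertia (intGen0 q M) hq hA σ hσ hy

theorem Ki0_F [NeZero n] (hq : q.Prime) (φ : GQ) (hφ : A.IsFrobeniusAt φ q) :
    ∀ y ∈ Ki0 q M A n, rho (modularFunctionFieldFull (q * M)) n φ y ∈ Ki0 q M A n :=
  fun _ hy => IsKinf.rho_frob (intGen0 q M) hq hA φ hφ hy

/-- `y ∈ w0⁻¹ Y₀` and `w0 = - U_q` at `w0 y`  ⟹  `y ∈ Y₀`. -/
theorem Kz0_le [NeZero n] (X0 : Ops.U.UOp (modularFunctionFieldFull (q * M)) q)
    {y : W1 (modularFunctionFieldFull (q * M)) n} (hy : y ∈ Kz0 (Ops.w0Dat hq hc) A n)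
    (hnew : autW (Ops.w0 hc) n (autW (Ops.w0 hc) n y) = - X0.UW n (autW (Ops.w0 hc) n y)) :
    y ∈ Ki0 q M A n := by
  have h1 : autW (Ops.w0 hc) n y ∈ Ki0 q M A n := hy
  have h2 : autW (Ops.w0 hc) n (autW (Ops.w0 hc) n y) = y := by
    obtain ⟨u, rfl⟩ := cls_surjective y
    rw [autW_cls, autW_cls]
    refine congrArg cls (Subtype.ext (Units.ext ?_))
    exact Ops.w0_w0 hc _
  rw [← h2, hnew]
  exact (Ki0 q M A n).neg_mem (Ki0_U hA hq X0 _ h1)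

end

theorem mem_Kz0_iff (hq : q.Prime) (hc : Nat.Coprime q M)
    {y : W1 (modularFunctionFieldFull (q * M)) n} :
    y ∈ Kz0 (Ops.w0Dat hq hc) A n ↔ autW (Ops.w0 hc) n y ∈ Ki0 q M A n := Iff.rfl

theorem mem_Kz_iff (hq : q.Prime) (hc : Nat.Coprime q M) {x : W1 (F1Q q M) n} :
    x ∈ Kz (Ops.wDat hq hc) A n ↔ autW (Ops.w hc) n x ∈ Ki q M A n := Iff.rfl

/-- `up y ∈ K' ↔ up (w0 y) ∈ K` -/
theorem raw_upK' (hq : q.Prime) (hc : Nat.Coprime q M)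
    (y : W1 (modularFunctionFieldFull (q * M)) n) :
    piUp (pairD q M) n y ∈ Kz (Ops.wDat hq hc) A n ↔
      piUp (pairD q M) n (autW (Ops.w0 hc) n y) ∈ Ki q M A n := by
  rw [mem_Kz_iff]
  have h := wW_piUp (pairD q M) (Ops.w0Dat hq hc).toWTw (Ops.wDat hq hc).toWTw
    (Ops.w0Dat hq hc).compat (n := n) y
  have h' : autW (Ops.w hc) n (piUp (pairD q M) n y) =
      piUp (pairD q M) n (autW (Ops.w0 hc) n y) := h
  rw [h']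

end Fermat.Agent.S43.Triv

end
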