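/-
Row 37 (S43), block TRIV/C4 (helper194).  Existence of a Kummer generator (Lagrange resolvent + Dedekind), Mathlib only:
if `γ` is a `K`-automorphism of the field `F` of exact order `m` and `ζ ^ m = 1`, `ζ ∈ K`, there is `θ ≠ 0` with `γ θ = ζ θ`.
-/
import Mathlib

set_option autoImplicit false

namespace Fermat.Agent.S43.Triv

theorem exists_resolvent {K F : Type*} [Field K] [Field F] [Algebra K F] (γ : F ≃ₐ[K] F) {m : ℕ}
    (hm : 0 < m) (hord : orderOf γ = m) {ζ : K} (hζ : ζ ^ m = 1) :
    ∃ θ : F, θ ≠ 0 ∧ γ θ = algebraMap K F ζ * θ := by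
  classical
  have hζ0 : ζ ≠ 0 := by
    rintro rfl
    rw [zero_pow hm.ne'] at hζ
    exact zero_ne_one hζ
  have hγm : γ ^ m = 1 := by rw [← hord]; exact pow_orderOf_eq_one γ
  obtain ⟨k, rfl⟩ : ∃ k, m = k + 1 := ⟨m - 1, by omega⟩
  let c : ℕ → F := fun i => algebraMap K F (ζ ^ (k - i))
  let Θ : F → F := fun y => ∑ i ∈ Finset.range (k + 1), c i * (γ ^ i) y
  -- the eigenvector property
  have heig : ∀ y, γ (Θ y) = algebraMap K F ζ * Θ y := by
    intro y
    have h1 : γ (Θ y) = ∑ i ∈ Finset.range (k + 1), c i * (γ ^ (i + 1)) y := by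
      show γ (∑ i ∈ Finset.range (k + 1), c i * (γ ^ i) y) = _
      rw [map_sum]
      refine Finset.sum_congr rfl fun i _ => ?_
      rw [map_mul, AlgEquiv.commutes, pow_succ', AlgEquiv.mul_apply]
    have h2 : algebraMap K F ζ * Θ y =
        ∑ i ∈ Finset.range (k + 1), algebraMap K F ζ * c i * (γ ^ i) y := by
      show algebraMap K F ζ * (∑ i ∈ Finset.range (k + 1), c i * (γ ^ i) y) = _
      rw [Finset.mul_sum]
      exact Finset.sum_congr rfl fun i _ => (mul_assoc _ _ _).symm
    rw [h1, h2, Finset.sum_range_succ, Finset.sum_range_succ']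
    have e1 : c k * (γ ^ (k + 1)) y = algebraMap K F ζ * c 0 * (γ ^ 0) y := by
      rw [hγm, pow_zero]
      show algebraMap K F (ζ ^ (k - k)) * y = algebraMap K F ζ * algebraMap K F (ζ ^ (k - 0)) * y
      rw [Nat.sub_self, pow_zero, map_one, Nat.sub_zero, ← map_mul, ← pow_succ', hζ, map_one]
    rw [e1]
    congr 1
    refine Finset.sum_congr rfl fun i hi => ?_
    have hi' : i < k := Finset.mem_range.1 hi
    congr 1
    show algebraMap K F (ζ ^ (k - i)) = algebraMap K F ζ * algebraMap K F (ζ ^ (k - (i + 1)))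
    rw [← map_mul, ← pow_succ']
    congr 2
    omega
  -- non vanishing
  by_contra hcon
  push Not at hcon
  have hzero : ∀ y, Θ y = 0 := by
    intro y
    by_contra hy
    exact hcon (Θ y) hy (heig y)
  have hli := linearIndependent_monoidHom F F
  let v : Fin (k + 1) → (F →* F) := fun i => ((γ ^ (i : ℕ) : F ≃ₐ[K] F) : F →* F)
  have hv : Function.Injective v := by
    intro i j hij
    have h3 : γ ^ (i : ℕ) = γ ^ (j : ℕ) := by
      refine AlgEquiv.ext fun z => ?_
      exact DFunLike.congr_fun hij z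
    have := pow_injOn_Iio_orderOf (x := γ) (by rw [hord]; exact i.2) (by rw [hord]; exact j.2) h3
    exact Fin.ext this
  have hli' := hli.comp v hv
  rw [Fintype.linearIndependent_iff] at hli'
  have h4 := hli' (fun i => c i) (by
    funext y
    have := hzero y
    simp only [Function.comp, Finset.sum_apply, Pi.smul_apply, smul_eq_mul, Pi.zero_apply]
    rw [← this]
    show _ = ∑ i ∈ Finset.range (k + 1), c i * (γ ^ i) y
    rw [← Fin.sum_univ_eq_sum_range (fun i => c i * (γ ^ i) y) (k + 1)]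
    rfl) 0
  have h5 : c 0 ≠ 0 := (map_ne_zero _).2 (pow_ne_zero _ hζ0)
  exact h5 h4

end Fermat.Agent.S43.Triv
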