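/-
Row 37 (S43), block TRIV/C4 (helper194).  (INJ) = (C4) = (gamma), CONCRETE FORM, from helper140's LEMMA RES (`T2/Res.lean`).

`X : Pair F₀ F₀'`, `D : Dia F₀' G`, `γ = ⟨d₀⟩` of exact order `m` with fixed field `FB F₀`, `ℓ ∤ m`, `m ∣ n m'`.
`inj_core` : if `π^* x ∈ K_∞` (all conjugates) then `m' x ∈ K_∞^0 + ker π^*`.
(`hram` = the leaf UNRAM/FREE-RAM: a function of `FB F₀` which is Kummer in `FB F₀'` is Kummer in `FB F₀`.)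
With `ker π^*` Eisenstein (`Free/KerUp.lean`), `T_l` stability of `K_∞^0` and `m'` prime to `n` this is (C4).
-/
import Fermat.Agent.S43.Triv.Gauss
import Fermat.Agent.S43.Triv.Pi
import Fermat.Agent.S43.Triv.Resolvent

set_option autoImplicit false

noncomputable section

namespace Fermat.Agent.S43.Triv

open ModularCurve AlgebraicCurve Fermat.Agent.S24 Fermat.Agent.S24.B Fermat.Agent.S48.BB
  Fermat.Agent.S48.BB.M Fermat.Agent.S48.BB.E Fermat.Agent.S48.BB.T Fermat.Agent.S43.Ops.Pi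
open Fermat.Agent.GAL.E (GQ incl red)

variable {F₀ F₀' : IntermediateField ℚ (LaurentSeries ℚ)} {A : ValuationSubring Kbar}

/-- descent of `CongC` along `FB F₀ ⊆ FB F₀'` -/
theorem CongC.of_alphaB (hG : IntGen F₀) {ℓ : ℕ} (hℓ : ℓ.Prime) (hA : A.LiesOverPrime ℓ)
    (hF : F₀ ≤ F₀') {u : FB F₀} (h : CongC F₀' A (alphaB hF u)) : CongC F₀ A u := by
  apply congC_of_redC hG hℓ hA u 1
  rw [qExpand_one_apply, ← coe_alphaB hF]
  exact h.redC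

/-- **(INJ), element form.** -/
theorem inj_elem (hG : IntGen F₀) (hG' : IntGen F₀') {ℓ : ℕ} (hℓ : ℓ.Prime)
    (hA : A.LiesOverPrime ℓ) (hF : F₀ ≤ F₀') (γ : FB F₀' ≃ₐ[Kbar] FB F₀') {m n m' : ℕ}
    (hm : 0 < m) (hn : 0 < n) (hord : orderOf γ = m) (hℓm : ¬ ℓ ∣ m)
    (hfixed : ∀ y, γ y = y → ∃ u, alphaB hF u = y)
    (g : FB F₀) (h : FB F₀')
    (H : ∀ i : ℕ, CongC F₀' A (alphaB hF g * (((γ ^ i) h) ^ n)⁻¹)) (hm' : m ∣ n * m') :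
    ∃ (h₁ τ : FB F₀) (θ₁ : FB F₀'), h₁ ≠ 0 ∧ θ₁ ≠ 0 ∧ alphaB hF τ = θ₁ ^ n ∧
      CongC F₀ A (g ^ m' * (h₁ ^ n * τ)⁻¹) := by
  have : NeZero m := ⟨hm.ne'⟩
  have : NeZero n := ⟨hn.ne'⟩
  obtain ⟨ζ, hζ⟩ := HasEnoughRootsOfUnity.exists_primitiveRoot Kbar m
  obtain ⟨ω, hω⟩ := HasEnoughRootsOfUnity.exists_primitiveRoot Kbar n
  obtain ⟨θ, hθ0, hθ⟩ := exists_resolvent γ hm hord hζ.pow_eq_one
  have hγm : γ ^ m = 1 := by rw [← hord]; exact pow_orderOf_eq_one γ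
  obtain ⟨h₁, τ, θ₁, hh₁, hh₁0, hτ, hθ₁0, hτθ, hC⟩ :=
    T2.res_class (gaussV hG' hℓ hA) γ hm hn hγm (valuation_natCast_eq_one hG' hℓ hA m hℓm) hζ hω
      hθ0 hθ (fun i => (congC_iff hG' hℓ hA _).1 (H i)) hm'
  obtain ⟨a, rfl⟩ := hfixed h₁ hh₁
  obtain ⟨b, rfl⟩ := hfixed τ hτ
  refine ⟨a, b, θ₁, fun h0 => hh₁0 (by rw [h0, map_zero]), hθ₁0, hτθ, ?_⟩
  apply CongC.of_alphaB hG hℓ hA hF
  rw [map_mul, map_inv₀, map_mul, map_pow, map_pow]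
  exact (congC_iff hG' hℓ hA _).2 hC

variable {G : Type} [Group G] (X : Pair F₀ F₀') (D : Dia F₀' G) {n : ℕ}

/-- **(INJ), class form**: `π^* x ∈ K_∞ ⟹ m' x ∈ K_∞^0 + ker π^*`. -/
theorem inj_core [NeZero n] (hG : IntGen F₀) (hG' : IntGen F₀') {ℓ : ℕ} (hℓ : ℓ.Prime)
    (hA : A.LiesOverPrime ℓ) (d₀ : G) {m m' : ℕ} (hm : 0 < m) (hord : orderOf (D.dia d₀) = m)
    (hℓm : ¬ ℓ ∣ m) (hfix : ∀ u : FB F₀, D.dia d₀ (alphaB X.le u) = alphaB X.le u)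
    (hfixed : ∀ y, D.dia d₀ y = y → ∃ u, alphaB X.le u = y)
    (hram : ∀ u : FB F₀, IsKum (FB F₀') n (alphaB X.le u) → IsKum (FB F₀) n u)
    (hm' : m ∣ n * m') {x : W1 F₀ n} (hx : IsKD D A (piUp X n x)) :
    ∃ y : W1 F₀ n, piUp X n y = 0 ∧ IsKinf A (m' • x - y) := by
  obtain ⟨g, rfl⟩ := cls_surjective x
  obtain ⟨u, hu, hC⟩ := hx
  rw [piUp_cls] at hu
  -- `u = g v ^ n`
  have h0 : cls (u * (⟨upU X.le (g : (FB F₀)ˣ), X.up n _ g.2⟩ : kum (FB F₀') n)⁻¹) = 0 := by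
    rw [← cls_sub, hu]
    exact sub_self (G := W (FB F₀') n) _
  rw [cls_eq_zero_iff] at h0
  obtain ⟨v, hv⟩ := mem_pows.1 h0
  set g0 : FB F₀ := ((g : (FB F₀)ˣ) : FB F₀) with hg0
  have hg00 : g0 ≠ 0 := Units.ne_zero _
  have huv : ((u : (FB F₀')ˣ) : FB F₀') = alphaB X.le g0 * (v : FB F₀') ^ n := by
    have h1 := congrArg (fun z : (FB F₀')ˣ => (z : FB F₀')) hv
    simp only [Units.val_pow_eq_pow_val] at h1
    rw [coe_mul_inv] at h1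
    have h2 : (((⟨upU X.le (g : (FB F₀)ˣ), X.up n _ g.2⟩ : kum (FB F₀') n) : (FB F₀')ˣ) : FB F₀') =
        alphaB X.le g0 := rfl
    rw [h2] at h1
    have h3 : alphaB X.le g0 ≠ 0 := (map_ne_zero _).2 hg00
    rw [h1]
    field_simp
  have hpowfix : ∀ (i : ℕ) (z : FB F₀), (D.dia d₀ ^ i) (alphaB X.le z) = alphaB X.le z := by
    intro i z
    induction i with
    | zero => rfl
    | succ i ih => rw [pow_succ, AlgEquiv.mul_apply, hfix, ih]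
  obtain ⟨h₁, τ, θ₁, hh₁, hθ₁, hτ, hCC⟩ := inj_elem hG hG' hℓ hA X.le (D.dia d₀) hm (NeZero.pos n)
    hord hℓm hfixed g0 ((v : FB F₀')⁻¹) (fun i => by
      have h1 := hC (d₀ ^ i)
      rw [map_pow, huv, map_mul, hpowfix, map_pow] at h1
      rwa [map_inv₀, inv_pow, inv_inv]) hm'
  have hτ0 : τ ≠ 0 := by
    rintro rfl
    rw [map_zero] at hτ
    exact pow_ne_zero n hθ₁ hτ.symm
  have hτk : IsKum (FB F₀) n τ := hram τ (by rw [hτ]; exact isKum_pow_self n θ₁)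
  let t : kum (FB F₀) n := ⟨Units.mk0 τ hτ0, hτk⟩
  let a : kum (FB F₀) n := ⟨Units.mk0 h₁ hh₁ ^ n, pows_le_kum (FB F₀) n ⟨Units.mk0 h₁ hh₁, rfl⟩⟩
  have ha : cls a = 0 := (cls_eq_zero_iff a).2 ⟨Units.mk0 h₁ hh₁, rfl⟩
  refine ⟨cls t, ?_, ?_⟩
  · rw [piUp_cls, cls_eq_zero_iff]
    exact mem_pows_of_eq_pow (w := θ₁) hτ
  · have e : m' • cls g - cls t = cls (g ^ m' * (a * t)⁻¹) := by
      rw [← cls_sub, cls_pow, cls_mul, ha]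
      congr 1
      exact (zero_add (M := W (FB F₀) n) _).symm
    rw [e]
    apply isKinf_of_congC
    rw [coe_mul_inv]
    exact hCC

end Fermat.Agent.S43.Triv

end
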